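import Mathlib

/-!
# S56 / W-FLAT-SS, RamCount: inflation–restriction for a finite group (helper194, Mathlib only)

`Γ` a group, `ρ : Γ →* End_k V`, `c : Γ → End_k V` an `Ad ρ`-cocycle
(`c (σ τ) = c σ + ρ σ · c τ · ρ σ⁻¹`).

* `adCocycle_eq_of_mul_mem` : if `c` vanishes on a subgroup `H`, it is constant on left cosets.
* `exists_coboundary_of_vanish` (IR): if `c` vanishes on a subgroup `H` of finite index
  invertible in `k`, then `c σ = ρ σ · m · ρ σ⁻¹ - m` for some `m` (averaging).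
* `natCast_card_quotient_ne_zero` : if `σ ^ N ∈ H` for all `σ`, `H` normal, `p ∤ N`, `Γ` finite,
  then `#(Γ ⧸ H)` is invertible in a field of characteristic `p`.
* `exists_coboundary_of_vanish_ker` : the combination used at the end of RamCount: if every
  `ρ σ ^ N = 1` with `p ∤ N` and `c` vanishes on `ker ρ`, then `c` is a coboundary.
-/

set_option autoImplicit false

namespace Fermat.Agent.S56.H194.IR

variable {k : Type*} [Field k] {V : Type*} [AddCommGroup V] [Module k V]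
  {Γ : Type*} [Group Γ] (ρ : Γ →* Module.End k V) (c : Γ → Module.End k V)

theorem adCocycle_eq_of_mul_mem
    (hc : ∀ σ τ, c (σ * τ) = c σ + ρ σ * c τ * ρ σ⁻¹) (H : Subgroup Γ)
    (hH : ∀ σ ∈ H, c σ = 0) {σ τ : Γ} (h : σ⁻¹ * τ ∈ H) : c σ = c τ := by
  have h1 := hc σ (σ⁻¹ * τ)
  rw [mul_inv_cancel_left, hH _ h, mul_zero, zero_mul, add_zero] at h1
  exact h1.symm

/-- **(IR)** averaging: a cocycle vanishing on a subgroup of index invertible in `k` is a
coboundary. -/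
theorem exists_coboundary_of_vanish
    (hc : ∀ σ τ, c (σ * τ) = c σ + ρ σ * c τ * ρ σ⁻¹) (H : Subgroup Γ) [Finite (Γ ⧸ H)]
    (hH : ∀ σ ∈ H, c σ = 0) (hN : (Nat.card (Γ ⧸ H) : k) ≠ 0) :
    ∃ m : Module.End k V, ∀ σ, c σ = ρ σ * m * ρ σ⁻¹ - m := by
  classical
  let _ : Fintype (Γ ⧸ H) := Fintype.ofFinite _
  -- the cocycle on the coset space
  let cbar : Γ ⧸ H → Module.End k V := fun x =>
    Quotient.liftOn' x c (fun a b hab =>
      adCocycle_eq_of_mul_mem ρ c hc H hH (QuotientGroup.leftRel_apply.mp hab))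
  have hcbar : ∀ σ : Γ, cbar (σ : Γ ⧸ H) = c σ := fun σ => rfl
  set S : Module.End k V := ∑ x : Γ ⧸ H, cbar x with hS
  have key : ∀ σ : Γ, S = (Nat.card (Γ ⧸ H) : k) • c σ + ρ σ * S * ρ σ⁻¹ := by
    intro σ
    have h1 : ∑ x : Γ ⧸ H, cbar (σ • x) = S := by
      rw [hS]
      exact Fintype.sum_equiv (MulAction.toPerm σ) _ _ (fun x => rfl)
    have h2 : ∀ x : Γ ⧸ H, cbar (σ • x) = c σ + ρ σ * cbar x * ρ σ⁻¹ := by
      intro x
      induction x using QuotientGroup.induction_on with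
      | H τ =>
        show cbar ((σ * τ : Γ) : Γ ⧸ H) = _
        rw [hcbar, hcbar, hc]
    have h5 : ∑ x : Γ ⧸ H, cbar (σ • x) =
        (Nat.card (Γ ⧸ H) : k) • c σ + ρ σ * S * ρ σ⁻¹ := by
      rw [Finset.sum_congr rfl (fun x _ => h2 x), Finset.sum_add_distrib, Finset.sum_const,
        ← Finset.sum_mul, ← Finset.mul_sum, Finset.card_univ, Nat.card_eq_fintype_card,
        Nat.cast_smul_eq_nsmul]
    rw [← h5, h1]
  refine ⟨-((Nat.card (Γ ⧸ H) : k)⁻¹ • S), fun σ => ?_⟩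
  have h := key σ
  have h3 : (Nat.card (Γ ⧸ H) : k) • c σ = S - ρ σ * S * ρ σ⁻¹ := by
    rw [eq_sub_iff_add_eq]
    exact h.symm
  have h4 : c σ = (Nat.card (Γ ⧸ H) : k)⁻¹ • (S - ρ σ * S * ρ σ⁻¹) := by
    rw [← h3, smul_smul, inv_mul_cancel₀ hN, one_smul]
  rw [h4, mul_neg, neg_mul, mul_smul_comm, smul_mul_assoc, smul_sub]
  abel

/-- If the quotient `Γ ⧸ H` has exponent prime to `p`, its order is invertible in
characteristic `p`. -/
theorem natCast_card_quotient_ne_zero [Finite Γ] (p : ℕ) [Fact p.Prime] [CharP k p]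
    (H : Subgroup Γ) [H.Normal] (N : ℕ) (hpN : ¬ p ∣ N) (hpow : ∀ σ : Γ, σ ^ N ∈ H) :
    (Nat.card (Γ ⧸ H) : k) ≠ 0 := by
  intro h0
  have hdvd : p ∣ Nat.card (Γ ⧸ H) := (CharP.cast_eq_zero_iff k p _).mp h0
  obtain ⟨x, hx⟩ := exists_prime_orderOf_dvd_card' p hdvd
  have hxN : x ^ N = 1 := by
    induction x using QuotientGroup.induction_on with
    | H σ =>
      rw [← QuotientGroup.mk_pow]
      exact (QuotientGroup.eq_one_iff _).mpr (hpow σ)
  have := orderOf_dvd_of_pow_eq_one hxN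
  rw [hx] at this
  exact hpN this

/-- The form used in RamCount: the image of `ρ` has exponent `N` prime to `p`, and the cocycle
vanishes on `ker ρ`. -/
theorem exists_coboundary_of_vanish_ker [Finite Γ] (p : ℕ) [Fact p.Prime] [CharP k p]
    (hc : ∀ σ τ, c (σ * τ) = c σ + ρ σ * c τ * ρ σ⁻¹)
    (N : ℕ) (hpN : ¬ p ∣ N) (hpow : ∀ σ : Γ, ρ σ ^ N = 1)
    (hker : ∀ σ, ρ σ = 1 → c σ = 0) :
    ∃ m : Module.End k V, ∀ σ, c σ = ρ σ * m * ρ σ⁻¹ - m := by
  refine exists_coboundary_of_vanish ρ c hc ρ.ker (fun σ hσ => hker σ (MonoidHom.mem_ker.mp hσ))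
    (natCast_card_quotient_ne_zero p ρ.ker N hpN (fun σ => ?_))
  rw [MonoidHom.mem_ker, map_pow]
  exact hpow σ

end Fermat.Agent.S56.H194.IR
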