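import Fermat.Agent.S56.H194.SSAbs

/-!
# S56 / W-FLAT-SS, piece FL-SS: corollaries of the structure theorem for `ad⁰`
(helper194; Mathlib only, on top of `SSAbs.lean`)

In the situation of `SS.Hyp` (`ρ` two-dimensional, irreducible on `D`, eigenvalues in `k`,
`D ⊇ I ⊇ W`, Frobenius `φ`):

* `Hyp.frob_sq`             : `ρ φ * ρ φ = c • 1`, `c ≠ 0`.
* `Hyp.image_pow`           : `ρ σ ^ (2 * (Nat.card k - 1)) = 1` for `σ ∈ D`; the exponent is prime to `p`.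
* `Hyp.exists_exponent`     : `∃ N, ¬ p ∣ N ∧ ∀ σ ∈ D, ρ σ ^ N = 1`.
* `Hyp.ad_coords`           : coordinates of `Ad ρ` in the basis of the structure theorem:
  inertia multiplies the `(0,1)`-coefficient by `ψ = χ/χ'` and the `(1,0)`-coefficient by `ψ⁻¹`,
  `ψ ≠ 1`, `ψ ^ (p + 1) = 1`; Frobenius exchanges the two diagonal coefficients and exchanges the
  off-diagonal ones up to `u`, `u⁻¹`.
* `Hyp.commutant_scalar`    : an endomorphism commuting with `ρ D` is a scalar.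
* `Hyp.ad_invariant_eq_zero`: for `p ≠ 2` a trace-zero endomorphism commuting with `ρ D` is `0`.
-/

set_option autoImplicit false

open Polynomial

namespace Fermat.Agent.S56.H194.SS

variable {k : Type*} [Field k] {V : Type*} [AddCommGroup V] [Module k V]

/-! ### Coordinates in a basis of a plane -/

section Coords

variable (b : Module.Basis (Fin 2) k V)

theorem eq_repr_smul_add (v : V) : v = b.repr v 0 • b 0 + b.repr v 1 • b 1 := by
  conv_lhs => rw [← b.sum_repr v, Fin.sum_univ_two]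

theorem repr_smul_add_zero (x y : k) : b.repr (x • b 0 + y • b 1) 0 = x := by
  simp

theorem repr_smul_add_one (x y : k) : b.repr (x • b 0 + y • b 1) 1 = y := by
  simp

theorem repr_diag {f : Module.End k V} {c₀ c₁ : k} (h₀ : f (b 0) = c₀ • b 0)
    (h₁ : f (b 1) = c₁ • b 1) (v : V) :
    b.repr (f v) 0 = c₀ * b.repr v 0 ∧ b.repr (f v) 1 = c₁ * b.repr v 1 := by
  have hv : f v = (c₀ * b.repr v 0) • b 0 + (c₁ * b.repr v 1) • b 1 := by
    conv_lhs => rw [eq_repr_smul_add b v]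
    rw [map_add, map_smul, map_smul, h₀, h₁, smul_smul, smul_smul, mul_comm, mul_comm _ c₁]
  rw [hv]
  exact ⟨repr_smul_add_zero b _ _, repr_smul_add_one b _ _⟩

theorem repr_antidiag {f : Module.End k V} {c₀ c₁ : k} (h₀ : f (b 0) = c₀ • b 1)
    (h₁ : f (b 1) = c₁ • b 0) (v : V) :
    b.repr (f v) 0 = c₁ * b.repr v 1 ∧ b.repr (f v) 1 = c₀ * b.repr v 0 := by
  have hv : f v = (c₁ * b.repr v 1) • b 0 + (c₀ * b.repr v 0) • b 1 := by
    conv_lhs => rw [eq_repr_smul_add b v]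
    rw [map_add, map_smul, map_smul, h₀, h₁, smul_smul, smul_smul, mul_comm, mul_comm _ c₁,
      add_comm]
  rw [hv]
  exact ⟨repr_smul_add_zero b _ _, repr_smul_add_one b _ _⟩

theorem ext_basis_two {f g : Module.End k V} (h₀ : f (b 0) = g (b 0)) (h₁ : f (b 1) = g (b 1)) :
    f = g := by
  apply b.ext
  intro i
  fin_cases i
  · exact h₀
  · exact h₁

/-- `f` is monomial in the basis `b`: diagonal or anti-diagonal with non-zero entries. -/
def IsMonomial (f : Module.End k V) : Prop :=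
  (∃ c₀ c₁ : k, c₀ ≠ 0 ∧ c₁ ≠ 0 ∧ f (b 0) = c₀ • b 0 ∧ f (b 1) = c₁ • b 1) ∨
  (∃ c₀ c₁ : k, c₀ ≠ 0 ∧ c₁ ≠ 0 ∧ f (b 0) = c₀ • b 1 ∧ f (b 1) = c₁ • b 0)

theorem IsMonomial.one : IsMonomial b (1 : Module.End k V) :=
  Or.inl ⟨1, 1, one_ne_zero, one_ne_zero, by simp, by simp⟩

theorem IsMonomial.mul {f g : Module.End k V} (hf : IsMonomial b f) (hg : IsMonomial b g) :
    IsMonomial b (f * g) := by
  rcases hf with ⟨c₀, c₁, hc₀, hc₁, hf₀, hf₁⟩ | ⟨c₀, c₁, hc₀, hc₁, hf₀, hf₁⟩ <;>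
  rcases hg with ⟨d₀, d₁, hd₀, hd₁, hg₀, hg₁⟩ | ⟨d₀, d₁, hd₀, hd₁, hg₀, hg₁⟩
  · exact Or.inl ⟨d₀ * c₀, d₁ * c₁, mul_ne_zero hd₀ hc₀, mul_ne_zero hd₁ hc₁,
      by rw [Module.End.mul_apply, hg₀, map_smul, hf₀, smul_smul],
      by rw [Module.End.mul_apply, hg₁, map_smul, hf₁, smul_smul]⟩
  · exact Or.inr ⟨d₀ * c₁, d₁ * c₀, mul_ne_zero hd₀ hc₁, mul_ne_zero hd₁ hc₀,
      by rw [Module.End.mul_apply, hg₀, map_smul, hf₁, smul_smul],
      by rw [Module.End.mul_apply, hg₁, map_smul, hf₀, smul_smul]⟩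
  · exact Or.inr ⟨d₀ * c₀, d₁ * c₁, mul_ne_zero hd₀ hc₀, mul_ne_zero hd₁ hc₁,
      by rw [Module.End.mul_apply, hg₀, map_smul, hf₀, smul_smul],
      by rw [Module.End.mul_apply, hg₁, map_smul, hf₁, smul_smul]⟩
  · exact Or.inl ⟨d₀ * c₁, d₁ * c₀, mul_ne_zero hd₀ hc₁, mul_ne_zero hd₁ hc₀,
      by rw [Module.End.mul_apply, hg₀, map_smul, hf₁, smul_smul],
      by rw [Module.End.mul_apply, hg₁, map_smul, hf₀, smul_smul]⟩

theorem IsMonomial.pow {f : Module.End k V} (hf : IsMonomial b f) (n : ℕ) :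
    IsMonomial b (f ^ n) := by
  induction n with
  | zero => rw [pow_zero]; exact IsMonomial.one b
  | succ n ih => rw [pow_succ]; exact ih.mul b hf

theorem pow_eq_one_of_diag [Finite k] {f : Module.End k V} {c₀ c₁ : k} (hc₀ : c₀ ≠ 0)
    (hc₁ : c₁ ≠ 0) (h₀ : f (b 0) = c₀ • b 0) (h₁ : f (b 1) = c₁ • b 1) :
    f ^ (Nat.card k - 1) = 1 := by
  have key : ∀ c : k, c ≠ 0 → c ^ (Nat.card k - 1) = 1 := by
    intro c hc
    let _ := Fintype.ofFinite k
    rw [Nat.card_eq_fintype_card]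
    exact FiniteField.pow_card_sub_one_eq_one c hc
  apply ext_basis_two b
  · rw [Hyp.pow_apply_eigen h₀, key c₀ hc₀, one_smul, Module.End.one_apply]
  · rw [Hyp.pow_apply_eigen h₁, key c₁ hc₁, one_smul, Module.End.one_apply]

theorem IsMonomial.pow_eq_one [Finite k] {f : Module.End k V} (hf : IsMonomial b f) :
    f ^ (2 * (Nat.card k - 1)) = 1 := by
  rcases hf with ⟨c₀, c₁, hc₀, hc₁, hf₀, hf₁⟩ | ⟨c₀, c₁, hc₀, hc₁, hf₀, hf₁⟩
  · rw [mul_comm, pow_mul, pow_eq_one_of_diag b hc₀ hc₁ hf₀ hf₁, one_pow]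
  · rw [pow_mul]
    apply pow_eq_one_of_diag b (mul_ne_zero hc₀ hc₁) (mul_ne_zero hc₁ hc₀)
    · rw [pow_two, Module.End.mul_apply, hf₀, map_smul, hf₁, smul_smul]
    · rw [pow_two, Module.End.mul_apply, hf₁, map_smul, hf₀, smul_smul]

end Coords

namespace Hyp

variable [Module.Finite k V] {p : ℕ} [Fact p.Prime] [CharP k p] {G : Type*} [Group G]
  {ρ : G →* Module.End k V} {D I W : Subgroup G} {φ : G}

variable (h : Hyp p ρ D I W φ)

include h

/-- Matrix-free form of the structure theorem: explicit action on the basis, characters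
multiplicative. -/
theorem structure_thm' [Finite k] :
    ∃ (b : Module.Basis (Fin 2) k V) (χ χ' : G → k) (a a' : k),
      (∀ τ ∈ I, ρ τ (b 0) = χ τ • b 0 ∧ ρ τ (b 1) = χ' τ • b 1) ∧
      (∃ τ ∈ I, χ τ ≠ χ' τ) ∧
      (∀ τ ∈ I, χ' τ = χ τ ^ p ∧ χ τ = χ' τ ^ p) ∧
      (∀ τ ∈ I, χ τ ≠ 0 ∧ χ' τ ≠ 0) ∧
      a ≠ 0 ∧ a' ≠ 0 ∧ ρ φ (b 0) = a • b 1 ∧ ρ φ (b 1) = a' • b 0 := by
  obtain ⟨b, χ, χ', a, a', h1, h2, h3, ha, ha', h4, h5⟩ := h.structure_thm
  refine ⟨b, χ, χ', a, a', h1, h2, h3, ?_, ha, ha', h4, h5⟩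
  intro τ hτ
  constructor
  · intro h0
    have := (h1 τ hτ).1
    rw [h0, zero_smul] at this
    exact b.ne_zero 0 (rho_injective τ (this.trans (map_zero _).symm))
  · intro h0
    have := (h1 τ hτ).2
    rw [h0, zero_smul] at this
    exact b.ne_zero 1 (rho_injective τ (this.trans (map_zero _).symm))

/-- `ρ φ * ρ φ` is a non-zero scalar. -/
theorem frob_sq [Finite k] : ∃ c : k, c ≠ 0 ∧ ρ φ * ρ φ = c • (1 : Module.End k V) := by
  obtain ⟨b, χ, χ', a, a', -, -, -, -, ha, ha', h4, h5⟩ := h.structure_thm'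
  refine ⟨a * a', mul_ne_zero ha ha', ?_⟩
  apply ext_basis_two b
  · rw [Module.End.mul_apply, h4, map_smul, h5, smul_smul, LinearMap.smul_apply,
      Module.End.one_apply]
  · rw [Module.End.mul_apply, h5, map_smul, h4, smul_smul, LinearMap.smul_apply,
      Module.End.one_apply, mul_comm]

/-- Every `ρ σ`, `σ ∈ D`, is monomial in the basis of the structure theorem. -/
theorem exists_basis_monomial [Finite k] :
    ∃ b : Module.Basis (Fin 2) k V, ∀ σ ∈ D, IsMonomial b (ρ σ) := by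
  obtain ⟨b, χ, χ', a, a', h1, -, -, hne, ha, ha', h4, h5⟩ := h.structure_thm'
  refine ⟨b, fun σ hσ => ?_⟩
  obtain ⟨n, τ, hτ, hστ⟩ := h.gen σ hσ
  rw [hστ, map_mul, map_pow]
  refine IsMonomial.mul b (IsMonomial.pow b (Or.inr ⟨a, a', ha, ha', h4, h5⟩) n) ?_
  exact Or.inl ⟨χ τ, χ' τ, (hne τ hτ).1, (hne τ hτ).2, (h1 τ hτ).1, (h1 τ hτ).2⟩

/-- The image `ρ D` has exponent dividing `2 (|k| - 1)`. -/
theorem image_pow [Finite k] : ∀ σ ∈ D, ρ σ ^ (2 * (Nat.card k - 1)) = 1 := by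
  obtain ⟨b, hb⟩ := h.exists_basis_monomial
  exact fun σ hσ => (hb σ hσ).pow_eq_one b

omit h in
theorem not_dvd_two_mul_card_sub_one [Finite k] (hp : p ≠ 2) :
    ¬ p ∣ 2 * (Nat.card k - 1) := by
  have hpp : p.Prime := Fact.out
  intro hdvd
  rcases (Nat.Prime.dvd_mul hpp).mp hdvd with h2 | h2
  · exact hp ((Nat.prime_dvd_prime_iff_eq hpp Nat.prime_two).mp h2)
  · let _ := Fintype.ofFinite k
    obtain ⟨n, hn⟩ := FiniteField.card k p
    rw [Nat.card_eq_fintype_card, hn.2] at h2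
    have h3 : p ∣ p ^ (n : ℕ) := dvd_pow_self p n.ne_zero
    have h4 : 1 ≤ p ^ (n : ℕ) := Nat.one_le_pow _ _ hpp.pos
    have h5 : p ∣ 1 := by
      have := Nat.dvd_sub h3 h2
      rwa [Nat.sub_sub_self h4] at this
    exact hpp.one_lt.ne' (Nat.dvd_one.mp h5)

/-- The image `ρ D` has exponent prime to `p` (for `p` odd). -/
theorem exists_exponent [Finite k] (hp : p ≠ 2) : ∃ N : ℕ, ¬ p ∣ N ∧ ∀ σ ∈ D, ρ σ ^ N = 1 :=
  ⟨_, not_dvd_two_mul_card_sub_one hp, h.image_pow⟩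

/-- Schur: an endomorphism commuting with `ρ D` is a scalar. -/
theorem commutant_scalar [Finite k] (m : Module.End k V)
    (hm : ∀ σ ∈ D, ρ σ * m = m * ρ σ) : ∃ c : k, m = c • (1 : Module.End k V) := by
  obtain ⟨b, χ, χ', a, a', h1, ⟨τ₀, hτ₀, hreg⟩, -, -, ha, ha', h4, h5⟩ := h.structure_thm'
  have hτ := hm τ₀ (h.I_le hτ₀)
  -- `m` is diagonal
  have e0 := congrArg (fun u : Module.End k V => b.repr (u (b 0)) 1) hτ
  have e1 := congrArg (fun u : Module.End k V => b.repr (u (b 1)) 0) hτ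
  simp only [Module.End.mul_apply] at e0 e1
  rw [(repr_diag b (h1 τ₀ hτ₀).1 (h1 τ₀ hτ₀).2 _).2, (h1 τ₀ hτ₀).1, map_smul, map_smul,
    Finsupp.smul_apply, smul_eq_mul] at e0
  rw [(repr_diag b (h1 τ₀ hτ₀).1 (h1 τ₀ hτ₀).2 _).1, (h1 τ₀ hτ₀).2, map_smul, map_smul,
    Finsupp.smul_apply, smul_eq_mul] at e1
  have z0 : b.repr (m (b 0)) 1 = 0 := by
    have : (χ' τ₀ - χ τ₀) * b.repr (m (b 0)) 1 = 0 := by rw [sub_mul, e0, sub_self]
    rcases mul_eq_zero.mp this with h0 | h0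
    · exact (hreg (sub_eq_zero.mp h0).symm).elim
    · exact h0
  have z1 : b.repr (m (b 1)) 0 = 0 := by
    have : (χ τ₀ - χ' τ₀) * b.repr (m (b 1)) 0 = 0 := by rw [sub_mul, e1, sub_self]
    rcases mul_eq_zero.mp this with h0 | h0
    · exact (hreg (sub_eq_zero.mp h0)).elim
    · exact h0
  have hm0 : m (b 0) = b.repr (m (b 0)) 0 • b 0 := by
    conv_lhs => rw [eq_repr_smul_add b (m (b 0)), z0, zero_smul, add_zero]
  have hm1 : m (b 1) = b.repr (m (b 1)) 1 • b 1 := by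
    conv_lhs => rw [eq_repr_smul_add b (m (b 1)), z1, zero_smul, zero_add]
  -- Frobenius identifies the two diagonal entries
  have hφ := congrArg (fun u : Module.End k V => u (b 0)) (hm φ h.phi_mem)
  simp only [Module.End.mul_apply] at hφ
  rw [hm0, map_smul, h4, map_smul, hm1, smul_smul, smul_smul] at hφ
  have hxy : b.repr (m (b 0)) 0 * a = a * b.repr (m (b 1)) 1 :=
    smul_left_injective k (b.ne_zero 1) hφ
  have hxy' : b.repr (m (b 0)) 0 = b.repr (m (b 1)) 1 :=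
    mul_left_cancel₀ ha ((mul_comm _ _).trans hxy)
  refine ⟨b.repr (m (b 0)) 0, ext_basis_two b ?_ ?_⟩
  · rw [LinearMap.smul_apply, Module.End.one_apply]; exact hm0
  · rw [LinearMap.smul_apply, Module.End.one_apply, hxy']; exact hm1

/-- For `p ≠ 2`, `ad⁰` has no invariants: a trace-zero endomorphism commuting with `ρ D`
vanishes. -/
theorem ad_invariant_eq_zero [Finite k] (hp : p ≠ 2) (m : Module.End k V)
    (htr : LinearMap.trace k V m = 0) (hm : ∀ σ ∈ D, ρ σ * m = m * ρ σ) : m = 0 := by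
  obtain ⟨c, rfl⟩ := h.commutant_scalar m hm
  rw [map_smul, LinearMap.trace_one, h.finrank_eq, smul_eq_mul] at htr
  have h2 : ((2 : ℕ) : k) ≠ 0 := by
    intro h0
    have hpp : p.Prime := Fact.out
    have := (CharP.cast_eq_zero_iff k p 2).mp h0
    exact hp ((Nat.prime_dvd_prime_iff_eq hpp Nat.prime_two).mp this)
  rcases mul_eq_zero.mp htr with h0 | h0
  · rw [h0, zero_smul]
  · exact (h2 h0).elim

/-- **Coordinates of `Ad ρ`.**  With `M i j := b.repr (m (b j)) i` the matrix coefficients of an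
endomorphism `m` in the basis of the structure theorem: inertia `τ` fixes the diagonal
coefficients, multiplies `M 0 1` by `ψ τ` and `M 1 0` by `(ψ τ)⁻¹`, where `ψ = χ / χ'` is
non-trivial on `I` and `ψ ^ (p + 1) = 1`, `ψ ^ p = ψ⁻¹`; Frobenius exchanges the diagonal
coefficients and maps `M 1 0` to `u * M 1 0` in position `(0, 1)`, `M 0 1` to `u⁻¹ * M 0 1` in
position `(1, 0)`. -/
theorem ad_coords [Finite k] :
    ∃ (b : Module.Basis (Fin 2) k V) (ψ : G → k) (u : k), u ≠ 0 ∧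
      (∃ τ ∈ I, ψ τ ≠ 1) ∧
      (∀ τ ∈ I, ψ τ ≠ 0 ∧ ψ τ ^ (p + 1) = 1 ∧ ψ τ ^ p = (ψ τ)⁻¹) ∧
      (∀ τ ∈ I, ∀ m : Module.End k V,
        b.repr ((ρ τ * m * ρ τ⁻¹) (b 0)) 0 = b.repr (m (b 0)) 0 ∧
        b.repr ((ρ τ * m * ρ τ⁻¹) (b 1)) 1 = b.repr (m (b 1)) 1 ∧
        b.repr ((ρ τ * m * ρ τ⁻¹) (b 1)) 0 = ψ τ * b.repr (m (b 1)) 0 ∧
        b.repr ((ρ τ * m * ρ τ⁻¹) (b 0)) 1 = (ψ τ)⁻¹ * b.repr (m (b 0)) 1) ∧
      (∀ m : Module.End k V,
        b.repr ((ρ φ * m * ρ φ⁻¹) (b 0)) 0 = b.repr (m (b 1)) 1 ∧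
        b.repr ((ρ φ * m * ρ φ⁻¹) (b 1)) 1 = b.repr (m (b 0)) 0 ∧
        b.repr ((ρ φ * m * ρ φ⁻¹) (b 1)) 0 = u * b.repr (m (b 0)) 1 ∧
        b.repr ((ρ φ * m * ρ φ⁻¹) (b 0)) 1 = u⁻¹ * b.repr (m (b 1)) 0) := by
  obtain ⟨b, χ, χ', a, a', h1, ⟨τ₀, hτ₀, hreg⟩, h3, hne, ha, ha', h4, h5⟩ := h.structure_thm'
  -- inverse images of the basis vectors
  have inv_diag : ∀ τ ∈ I, ρ τ⁻¹ (b 0) = (χ τ)⁻¹ • b 0 ∧ ρ τ⁻¹ (b 1) = (χ' τ)⁻¹ • b 1 := by
    intro τ hτ
    constructor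
    · apply rho_injective (ρ := ρ) τ
      rw [← Module.End.mul_apply, rho_mul_inv, Module.End.one_apply, map_smul, (h1 τ hτ).1,
        smul_smul, inv_mul_cancel₀ (hne τ hτ).1, one_smul]
    · apply rho_injective (ρ := ρ) τ
      rw [← Module.End.mul_apply, rho_mul_inv, Module.End.one_apply, map_smul, (h1 τ hτ).2,
        smul_smul, inv_mul_cancel₀ (hne τ hτ).2, one_smul]
  have inv_φ : ρ φ⁻¹ (b 0) = a'⁻¹ • b 1 ∧ ρ φ⁻¹ (b 1) = a⁻¹ • b 0 := by
    constructor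
    · apply rho_injective (ρ := ρ) φ
      rw [← Module.End.mul_apply, rho_mul_inv, Module.End.one_apply, map_smul, h5,
        smul_smul, inv_mul_cancel₀ ha', one_smul]
    · apply rho_injective (ρ := ρ) φ
      rw [← Module.End.mul_apply, rho_mul_inv, Module.End.one_apply, map_smul, h4,
        smul_smul, inv_mul_cancel₀ ha, one_smul]
  refine ⟨b, fun τ => χ τ * (χ' τ)⁻¹, a' * a⁻¹, mul_ne_zero ha' (inv_ne_zero ha),
    ⟨τ₀, hτ₀, ?_⟩, ?_, ?_, ?_⟩
  · intro h0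
    apply hreg
    have := congrArg (· * χ' τ₀) h0
    simpa [mul_assoc, inv_mul_cancel₀ (hne τ₀ hτ₀).2] using this
  · intro τ hτ
    have hx := (hne τ hτ).1
    have hy := (hne τ hτ).2
    have e1 : χ' τ = χ τ ^ p := (h3 τ hτ).1
    have e2 : χ τ = χ' τ ^ p := (h3 τ hτ).2
    refine ⟨mul_ne_zero hx (inv_ne_zero hy), ?_, ?_⟩
    · rw [mul_pow, inv_pow, pow_succ, pow_succ, ← e1, ← e2]
      field_simp
    · rw [mul_pow, inv_pow, ← e1, ← e2, mul_inv, inv_inv, mul_comm]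
  · intro τ hτ m
    have d := repr_diag b (h1 τ hτ).1 (h1 τ hτ).2
    have hx := (hne τ hτ).1
    have hy := (hne τ hτ).2
    refine ⟨?_, ?_, ?_, ?_⟩
    · rw [Module.End.mul_apply, Module.End.mul_apply, (inv_diag τ hτ).1, map_smul, map_smul,
        map_smul, Finsupp.smul_apply, smul_eq_mul, (d _).1, ← mul_assoc, inv_mul_cancel₀ hx,
        one_mul]
    · rw [Module.End.mul_apply, Module.End.mul_apply, (inv_diag τ hτ).2, map_smul, map_smul,
        map_smul, Finsupp.smul_apply, smul_eq_mul, (d _).2, ← mul_assoc, inv_mul_cancel₀ hy,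
        one_mul]
    · rw [Module.End.mul_apply, Module.End.mul_apply, (inv_diag τ hτ).2, map_smul, map_smul,
        map_smul, Finsupp.smul_apply, smul_eq_mul, (d _).1, ← mul_assoc, mul_comm (χ' τ)⁻¹]
    · rw [Module.End.mul_apply, Module.End.mul_apply, (inv_diag τ hτ).1, map_smul, map_smul,
        map_smul, Finsupp.smul_apply, smul_eq_mul, (d _).2, ← mul_assoc, mul_inv, inv_inv,
        mul_comm (χ τ)⁻¹]
  · intro m
    have d := repr_antidiag b h4 h5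
    refine ⟨?_, ?_, ?_, ?_⟩
    · rw [Module.End.mul_apply, Module.End.mul_apply, inv_φ.1, map_smul, map_smul,
        map_smul, Finsupp.smul_apply, smul_eq_mul, (d _).1, ← mul_assoc, inv_mul_cancel₀ ha',
        one_mul]
    · rw [Module.End.mul_apply, Module.End.mul_apply, inv_φ.2, map_smul, map_smul,
        map_smul, Finsupp.smul_apply, smul_eq_mul, (d _).2, ← mul_assoc, inv_mul_cancel₀ ha,
        one_mul]
    · rw [Module.End.mul_apply, Module.End.mul_apply, inv_φ.2, map_smul, map_smul,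
        map_smul, Finsupp.smul_apply, smul_eq_mul, (d _).1, ← mul_assoc, mul_comm a⁻¹]
    · rw [Module.End.mul_apply, Module.End.mul_apply, inv_φ.1, map_smul, map_smul,
        map_smul, Finsupp.smul_apply, smul_eq_mul, (d _).2, ← mul_assoc, mul_inv, inv_inv,
        mul_comm a'⁻¹]

end Hyp

end Fermat.Agent.S56.H194.SS
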