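import Fermat.Agent.S56.FL.RamLemSpec
import Fermat.Agent.S56.H194.SSAd
import Fermat.Agent.S56.H194.IRFin

/-!
# S56 / W-FLAT-SS, leaf RCTame (helper194)

`rcTame_of : RLWildStatement → RLTameStatement → RCTameStatement`:
for an `RCDatum` the image of `ρ` has order prime to `p` (`p ∤ [Γ : ker ρ]`).

Proof: the abstract structure theorem `SS.Hyp.structure_thm` (`SSAbs.lean`, `SSAd.lean`) for
`D = Γ`, `I = Γ₀`, `W = Γ₁`, Frobenius lift `φ`; its hypotheses are exactly the frozen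
ramification lemmas (RL-A) `Γ₁` is a `p`-group and (RL-C) tame generator / Frobenius lift.
Then every `ρ σ` is monomial in a basis, `ρ σ ^ (2 (|k| - 1)) = 1`, and Cauchy.
-/

set_option autoImplicit false

open Polynomial IsLocalRing

namespace Fermat.Agent.S56.H194

open Fermat.Agent.S56.FL

section Ram

variable {B Γ : Type} [CommRing B] [IsLocalRing B] [Group Γ] [MulSemiringAction Γ B]

theorem smul_mem_maximalIdeal_pow (g : Γ) (n : ℕ) {x : B} (hx : x ∈ maximalIdeal B ^ n) :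
    g • x ∈ maximalIdeal B ^ n := by
  have hmap : (maximalIdeal B).map (MulSemiringAction.toRingHom Γ B g) ≤ maximalIdeal B := by
    rw [Ideal.map_le_iff_le_comap]
    intro y hy
    rw [Ideal.mem_comap, mem_maximalIdeal, mem_nonunits_iff] at *
    intro hu
    apply hy
    have := hu.map (MulSemiringAction.toRingHom Γ B g⁻¹)
    simpa using this
  have h1 : g • x ∈ (maximalIdeal B ^ n).map (MulSemiringAction.toRingHom Γ B g) :=
    Ideal.mem_map_of_mem _ hx
  rw [Ideal.map_pow] at h1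
  exact Ideal.pow_right_mono hmap n h1

theorem ramGroup_conj_mem (n : ℕ) (g : Γ) {σ : Γ} (hσ : σ ∈ ramGroup B Γ n) :
    g * σ * g⁻¹ ∈ ramGroup B Γ n := by
  rw [mem_ramGroup] at hσ ⊢
  intro x
  have h := smul_mem_maximalIdeal_pow g (n + 1) (hσ (g⁻¹ • x))
  rwa [smul_sub, smul_inv_smul, ← mul_smul, ← mul_smul] at h

theorem ramGroup_normal (n : ℕ) : (ramGroup B Γ n).Normal :=
  ⟨fun _ hσ g => ramGroup_conj_mem n g hσ⟩

theorem ramGroup_one_le_zero : ramGroup B Γ 1 ≤ ramGroup B Γ 0 := by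
  intro σ hσ
  rw [mem_ramGroup] at hσ ⊢
  intro x
  exact Ideal.pow_le_pow_right (by norm_num) (hσ x)

end Ram

theorem natCast_p_mem_maximalIdeal (d : RCDatum) : (d.p : d.B) ∈ maximalIdeal d.B := by
  have hmax : ((maximalIdeal d.B).comap (algebraMap d.A d.B)).IsMaximal :=
    Ideal.isMaximal_comap_of_isIntegral_of_isMaximal _
  have heq := IsLocalRing.eq_maximalIdeal hmax
  have hp : (d.p : d.A) ∈ maximalIdeal d.A := by
    rw [d.hA]; exact Ideal.mem_span_singleton_self _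
  rw [← heq, Ideal.mem_comap, map_natCast] at hp
  exact hp

theorem charP_residueField (d : RCDatum) : CharP (ResidueField d.B) d.p := by
  have h0 : ((d.p : ℕ) : ResidueField d.B) = 0 := by
    have := (residue_eq_zero_iff _).mpr (natCast_p_mem_maximalIdeal d)
    rwa [map_natCast] at this
  have hdvd : ringChar (ResidueField d.B) ∣ d.p := (ringChar.spec _ _).mp h0
  rcases (Nat.dvd_prime d.hp).mp hdvd with h1 | hp
  · exact absurd h1 CharP.ringChar_ne_one
  · exact ringChar.of_eq hp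

/-- The hypotheses of the abstract (SS) statement hold for an `RCDatum`, given the frozen
ramification lemmas (RL-A) and (RL-C). -/
theorem exists_hyp_of (hW : RLWildStatement) (hT : RLTameStatement) (d : RCDatum) :
    ∃ φ : d.Γ, SS.Hyp d.p d.ρ ⊤ (ramGroup d.B d.Γ 0) (ramGroup d.B d.Γ 1) φ := by
  obtain ⟨τ₀, hτ₀, φ, μ, hgen₀, hμ, hu, -, hgenφ, hfrob⟩ := hT d
  have : Fact d.p.Prime := ⟨d.hp⟩
  have := charP_residueField d
  have hnorm : (ramGroup d.B d.Γ 1).Normal := ramGroup_normal 1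
  set W := ramGroup d.B d.Γ 1 with hWdef
  set I := ramGroup d.B d.Γ 0 with hIdef
  -- the quotient map
  let q : d.Γ →* d.Γ ⧸ W := QuotientGroup.mk' W
  have hq1 : ∀ σ : d.Γ, q σ = 1 ↔ σ ∈ W := fun σ => QuotientGroup.eq_one_iff σ
  have hqI : ∀ σ ∈ I, ∃ j : ℕ, q σ = q τ₀ ^ j := by
    intro σ hσ
    obtain ⟨j, hj⟩ := hgen₀ σ hσ
    refine ⟨j, ?_⟩
    have := (hq1 _).mpr hj
    rw [map_mul, map_inv, map_pow, mul_inv_eq_one] at this
    exact this
  -- a prime-to-`p` exponent killing the tame quotient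
  have hN : ∃ N : ℕ, ¬ d.p ∣ N ∧ q τ₀ ^ N = 1 := by
    have hord : orderOf τ₀ ≠ 0 := (orderOf_pos τ₀).ne'
    obtain ⟨a, N, hpN, hN⟩ := Nat.exists_eq_pow_mul_and_not_dvd hord d.p d.hp.ne_one
    refine ⟨N, hpN, ?_⟩
    have h1 : μ ^ orderOf τ₀ = 1 := by
      rw [← hμ, pow_orderOf_eq_one]
      exact one_mem _
    rw [hN, ExpChar.pow_prime_pow_mul_eq_one_iff] at h1
    rw [← map_pow, hq1]
    exact (hμ N).mpr h1
  obtain ⟨N, hpN, hN⟩ := hN
  refine ⟨φ, ?_⟩
  refine
    { finrank_eq := d.hV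
      I_le := le_top
      W_le := ramGroup_one_le_zero
      I_norm := fun g _ τ hτ => ramGroup_conj_mem 0 g hτ
      W_norm := fun g _ w hw => ramGroup_conj_mem 1 g hw
      W_pow := ?_
      comm := ?_
      tame := ?_
      phi_mem := Subgroup.mem_top φ
      gen := ?_
      frob := ?_
      split := d.hsplit
      irr := fun U hU => d.hirr U (fun σ x hx => hU σ (Subgroup.mem_top σ) x hx) }
  · -- `W` is a `p`-group
    intro w hw
    obtain ⟨a, ha⟩ := hW d ⟨w, hw⟩
    refine ⟨a, ?_⟩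
    have : w ^ d.p ^ a = 1 := by
      have := congrArg Subtype.val ha
      simpa using this
    rw [← map_pow, this, map_one]
  · -- commutators of inertia elements are wild
    intro σ hσ τ hτ
    obtain ⟨i, hi⟩ := hqI σ hσ
    obtain ⟨j, hj⟩ := hqI τ hτ
    refine ⟨σ * τ * σ⁻¹ * τ⁻¹, ?_, rfl⟩
    rw [← hq1, map_mul, map_mul, map_mul, map_inv, map_inv, hi, hj]
    rw [mul_inv_eq_one, mul_inv_eq_iff_eq_mul, ← pow_add, ← pow_add, add_comm]
  · -- tameness
    intro τ hτ
    obtain ⟨j, hj⟩ := hqI τ hτ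
    refine ⟨N, hpN, τ ^ N, ?_, rfl⟩
    rw [← hq1, map_pow, hj, ← pow_mul, mul_comm, pow_mul, hN, one_pow]
  · -- generation by Frobenius and inertia
    intro σ _
    obtain ⟨j, hj⟩ := hgenφ σ
    refine ⟨j, (φ ^ j)⁻¹ * (σ * (φ ^ j)⁻¹) * φ ^ j, ?_, ?_⟩
    · have := ramGroup_conj_mem 0 (φ ^ j)⁻¹ hj
      rwa [inv_inv] at this
    · congr 1
      group
  · -- the Frobenius relation
    intro τ hτ
    obtain ⟨j, hj⟩ := hqI τ hτ
    have hφτ₀ : q φ * q τ₀ * (q φ)⁻¹ = q τ₀ ^ d.p := by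
      have := (hq1 _).mpr hfrob
      rw [map_mul, map_mul, map_mul, map_inv, map_inv, map_pow, mul_inv_eq_one] at this
      exact this
    have hmem : (τ ^ d.p)⁻¹ * (φ * τ * φ⁻¹) ∈ W := by
      rw [← hq1, map_mul, map_inv, map_pow, map_mul, map_mul, map_inv, hj, inv_mul_eq_one,
        ← conj_pow, hφτ₀, ← pow_mul, ← pow_mul, mul_comm]
    refine ⟨_, hmem, ?_⟩
    congr 1
    group

/-- **RCTame** from the frozen ramification lemmas (RL-A) and (RL-C). -/
theorem rcTame_of (hW : RLWildStatement) (hT : RLTameStatement) : RCTameStatement := by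
  intro d
  obtain ⟨φ, hyp⟩ := exists_hyp_of hW hT d
  have : Fact d.p.Prime := ⟨d.hp⟩
  have := d.hchar
  obtain ⟨N, hpN, hN⟩ := hyp.exists_exponent d.hp2
  have hne := IR.natCast_card_quotient_ne_zero (k := d.k) d.p d.ρ.ker N hpN (fun σ => by
    rw [MonoidHom.mem_ker, map_pow]
    exact hN σ (Subgroup.mem_top σ))
  intro hdvd
  apply hne
  rw [← Subgroup.index_eq_card]
  exact (CharP.cast_eq_zero_iff d.k d.p _).mpr hdvd

end Fermat.Agent.S56.H194
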