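import Fermat.Agent.S56.FL.ShapeSpec
import Fermat.Agent.S56.H194.RCTame

/-!
# S56 / W-FLAT-SS, leaf RL-CYC (helper194): `rlCyc : FL.RLCycStatement`

The mod-`p` cyclotomic character has exact order `p - 1` on tame inertia: for an `RCDatum` with
`Γ₁` a `p`-group, `e = |Γ₀|` and tame data `(τ₀, φ, μ)`:
`τ₀ ^ j • ζ = ζ ^ a → (a ≡ 1 [MOD p] ↔ p - 1 ∣ j)`.

Proof.  `(p) = (ζ - 1)^(p-1)`, so `ζ - 1 = w ϖ^t` with `e = t (p - 1)`.  For `σ = τ₀ ^ j`,
`σ ϖ = u ϖ` with `ū = μ ^ j`, and `σ (ζ - 1) = ζ ^ a - 1 = (ζ - 1)(1 + ζ + ⋯ + ζ^(a-1))` gives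
`μ ^ (j t) = a` in the residue field.  Finally `|Γ₀| = ord(μ) |Γ₁| = ord(μ) p ^ s`, so
`ord(μ) = (p - 1) t'`, `t = p ^ s t'`, and `ord(μ) ∣ j t ↔ p - 1 ∣ j`.
-/

set_option autoImplicit false

open Polynomial IsLocalRing Finset

namespace Fermat.Agent.S56.H194

open Fermat.Agent.S56.FL

/-- `(p) = (ζ - 1)^(p-1)` as ideals of a domain containing a primitive `p`-th root of unity. -/
theorem span_natCast_eq_span_zeta_sub_one_pow {R : Type*} [CommRing R] [IsDomain R] {p : ℕ}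
    (hp : p.Prime) {ζ : R} (hζ : IsPrimitiveRoot ζ p) :
    Ideal.span {(p : R)} = Ideal.span {ζ - 1} ^ (p - 1) := by
  obtain ⟨n, rfl⟩ : ∃ n, p = n + 1 := ⟨p - 1, (Nat.succ_pred_eq_of_pos hp.pos).symm⟩
  have hprod := hζ.prod_one_sub_pow_eq_order
  have h1 : ∀ k ∈ range n, Ideal.span {1 - ζ ^ (k + 1)} = Ideal.span {ζ - 1} := by
    intro k hk
    have hcop : (k + 1).Coprime (n + 1) :=
      (Nat.coprime_of_lt_prime (Nat.succ_ne_zero k) (Nat.succ_lt_succ (mem_range.mp hk)) hp).symm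
    have := hζ.associated_sub_one_pow_sub_one_of_coprime hcop
    rw [← neg_sub, Ideal.span_singleton_neg]
    exact (Ideal.span_singleton_eq_span_singleton.mpr this).symm
  rw [Nat.add_sub_cancel]
  calc Ideal.span {((n + 1 : ℕ) : R)} = Ideal.span {∏ k ∈ range n, (1 - ζ ^ (k + 1))} := by
        rw [hprod]; push_cast; rfl
    _ = ∏ k ∈ range n, Ideal.span {1 - ζ ^ (k + 1)} := (Ideal.prod_span_singleton _ _).symm
    _ = Ideal.span {ζ - 1} ^ n := by rw [prod_congr rfl h1, prod_const, card_range]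

section Action

variable {B Γ : Type} [CommRing B] [IsDomain B] [IsDiscreteValuationRing B] [Group Γ]
  [MulSemiringAction Γ B]

omit [IsDomain B] [IsDiscreteValuationRing B] in
theorem irreducible_smul' (g : Γ) {ϖ : B} (hϖ : Irreducible ϖ) : Irreducible (g • ϖ) :=
  (MulEquiv.irreducible_iff (MulSemiringAction.toRingEquiv Γ B g)).mpr hϖ

theorem exists_smul_eq_mul (g : Γ) {ϖ : B} (hϖ : Irreducible ϖ) :
    ∃ u : B, IsUnit u ∧ g • ϖ = u * ϖ := by
  obtain ⟨c, hc⟩ := IsDiscreteValuationRing.associated_of_irreducible B hϖ (irreducible_smul' g hϖ)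
  exact ⟨c, c.isUnit, by rw [← hc, mul_comm]⟩

theorem residue_smul_of_mem_ramGroup_zero {σ : Γ} (hσ : σ ∈ ramGroup B Γ 0) (x : B) :
    residue B (σ • x) = residue B x := by
  have h := hσ x
  rw [zero_add, pow_one] at h
  have := (residue_eq_zero_iff _).mpr h
  rwa [map_sub, sub_eq_zero] at this

end Action

/-- For tame data `(τ₀, φ, μ)`: `τ₀ ^ j • ϖ = u ϖ` implies `ū = μ ^ j`. -/
theorem residue_unit_pow (d : RCDatum) {τ₀ φ : d.Γ} {μ : ResidueField d.B}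
    (hT : d.TameData τ₀ φ μ) {ϖ : d.B} (hϖ : Irreducible ϖ) :
    ∀ (j : ℕ) (u : d.B), τ₀ ^ j • ϖ = u * ϖ → residue d.B u = μ ^ j := by
  obtain ⟨hτ₀, -, -, hu, -, -, -⟩ := hT
  have hϖ0 : ϖ ≠ 0 := hϖ.ne_zero
  intro j
  induction j with
  | zero =>
    intro u h
    rw [pow_zero, one_smul] at h
    have : u = 1 := by
      have h2 : (1 : d.B) * ϖ = u * ϖ := by rw [one_mul]; exact h
      exact (mul_right_cancel₀ hϖ0 h2).symm
    rw [this, map_one, pow_zero]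
  | succ j ih =>
    intro u h
    obtain ⟨u₁, -, h₁⟩ := exists_smul_eq_mul τ₀ hϖ
    obtain ⟨uj, -, hj⟩ := exists_smul_eq_mul (τ₀ ^ j) hϖ
    have e1 : τ₀ ^ (j + 1) • ϖ = (τ₀ ^ j • u₁ * uj) * ϖ := by
      rw [pow_succ, mul_smul, h₁, smul_mul', hj, mul_assoc]
    have e2 : u = τ₀ ^ j • u₁ * uj := mul_right_cancel₀ hϖ0 (h.symm.trans e1)
    rw [e2, map_mul, residue_smul_of_mem_ramGroup_zero (Subgroup.pow_mem _ hτ₀ j), hu ϖ hϖ u₁ h₁,
      ih uj hj, pow_succ, mul_comm]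

/-- `|Γ₀| = ord(μ) · |Γ₁|` for tame data `(τ₀, φ, μ)`. -/
theorem card_inertia_eq (d : RCDatum) {τ₀ φ : d.Γ} {μ : ResidueField d.B}
    (hT : d.TameData τ₀ φ μ) :
    Nat.card (ramGroup d.B d.Γ 0) = orderOf μ * Nat.card (ramGroup d.B d.Γ 1) := by
  obtain ⟨hτ₀, hgen, hμ, -, -, -, -⟩ := hT
  have hnorm : (ramGroup d.B d.Γ 1).Normal := ramGroup_normal 1
  have hle : ramGroup d.B d.Γ 1 ≤ ramGroup d.B d.Γ 0 := ramGroup_one_le_zero
  set I := ramGroup d.B d.Γ 0 with hI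
  set W' : Subgroup I := (ramGroup d.B d.Γ 1).subgroupOf I with hW'
  have hnorm' : W'.Normal := Subgroup.Normal.subgroupOf hnorm I
  let x₀ : I := ⟨τ₀, hτ₀⟩
  let q₀ : I ⧸ W' := QuotientGroup.mk x₀
  have hq₀ : ∀ n : ℕ, q₀ ^ n = 1 ↔ μ ^ n = 1 := by
    intro n
    rw [← hμ n]
    show ((x₀ ^ n : I) : I ⧸ W') = 1 ↔ _
    rw [QuotientGroup.eq_one_iff, hW', Subgroup.mem_subgroupOf]
    rfl
  have hall : ∀ y : I ⧸ W', y ∈ Subgroup.zpowers q₀ := by
    intro y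
    induction y using QuotientGroup.induction_on with
    | H σ =>
      obtain ⟨j, hj⟩ := hgen σ.1 σ.2
      refine ⟨(j : ℤ), ?_⟩
      have h1 : (σ * (x₀ ^ j)⁻¹ : I) ∈ W' := by
        rw [hW', Subgroup.mem_subgroupOf]
        exact hj
      have h2 := (QuotientGroup.eq_one_iff (N := W') (σ * (x₀ ^ j)⁻¹)).mpr h1
      rw [QuotientGroup.mk_mul, QuotientGroup.mk_inv, QuotientGroup.mk_pow, mul_inv_eq_one] at h2
      show q₀ ^ (j : ℤ) = _
      rw [zpow_natCast]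
      exact h2.symm
  have hcard : orderOf q₀ = Nat.card (I ⧸ W') := orderOf_eq_card_of_forall_mem_zpowers hall
  have hord : orderOf q₀ = orderOf μ := orderOf_eq_orderOf_iff.mpr hq₀
  rw [Subgroup.card_eq_card_quotient_mul_card_subgroup W', ← hcard, hord,
    Nat.card_congr (Subgroup.subgroupOfEquivOfLe hle).toEquiv]

/-- The arithmetic at the end of RL-CYC. -/
theorem dvd_mul_iff_of_mul_eq {P E₀ t s p j : ℕ} (hE₀ : 0 < E₀) (hp : 0 < p)
    (hcop : Nat.Coprime P p) (h : t * P = E₀ * p ^ s) : E₀ ∣ j * t ↔ P ∣ j := by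
  have hcop' : Nat.Coprime (p ^ s) P := (Nat.Coprime.pow_right s hcop).symm
  have h1 : p ^ s ∣ t := by
    have : p ^ s ∣ t * P := ⟨E₀, by rw [h, mul_comm]⟩
    exact hcop'.dvd_of_dvd_mul_right this
  obtain ⟨t', rfl⟩ := h1
  have hps : 0 < p ^ s := Nat.pow_pos hp
  have hE : E₀ = t' * P := by
    have : p ^ s * (t' * P) = p ^ s * E₀ := by rw [← mul_assoc, h, mul_comm]
    exact (Nat.eq_of_mul_eq_mul_left hps this).symm
  have ht' : 0 < t' := by
    rcases Nat.eq_zero_or_pos t' with h0 | h0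
    · rw [h0, zero_mul] at hE
      exact absurd hE hE₀.ne'
    · exact h0
  subst hE
  constructor
  · intro hd
    have h2 : t' * P ∣ t' * (j * p ^ s) := by
      have : j * (p ^ s * t') = t' * (j * p ^ s) := by ring
      rwa [this] at hd
    have h3 : P ∣ j * p ^ s := (Nat.mul_dvd_mul_iff_left ht').mp h2
    exact hcop'.symm.dvd_of_dvd_mul_right h3
  · rintro ⟨c, rfl⟩
    exact ⟨c * p ^ s, by ring⟩

/-- **RL-CYC.** -/
theorem rlCyc : RLCycStatement := by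
  intro d hW he τ₀ φ μ hT j a hja
  have hp := d.hp
  have hchar := charP_residueField d
  have hτ₀ : τ₀ ∈ ramGroup d.B d.Γ 0 := hT.1
  have hμ : ∀ j : ℕ, τ₀ ^ j ∈ ramGroup d.B d.Γ 1 ↔ μ ^ j = 1 := hT.2.2.1
  -- uniformizer
  obtain ⟨ϖ, hϖ⟩ := IsDiscreteValuationRing.exists_irreducible d.B
  have hϖ0 : ϖ ≠ 0 := hϖ.ne_zero
  have hζ1 : d.ζ - 1 ≠ 0 := sub_ne_zero.mpr (d.hζ.ne_one hp.one_lt)
  obtain ⟨t, w, hw⟩ := IsDiscreteValuationRing.eq_unit_mul_pow_irreducible hζ1 hϖ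
  -- `e = t (p - 1)`
  have het : d.e = t * (d.p - 1) := by
    have h1 := span_natCast_eq_span_zeta_sub_one_pow hp d.hζ
    rw [d.he, hw, hϖ.maximalIdeal_eq, Ideal.span_singleton_pow, Ideal.span_singleton_pow,
      Ideal.span_singleton_eq_span_singleton] at h1
    obtain ⟨u, hu'⟩ := h1
    have h2 : (u : d.B) * ϖ ^ d.e = ((w ^ (d.p - 1) : d.Bˣ) : d.B) * ϖ ^ (t * (d.p - 1)) := by
      rw [mul_comm, hu', mul_pow, ← pow_mul, Units.val_pow_eq_pow_val]
    exact IsDiscreteValuationRing.unit_mul_pow_congr_pow hϖ hϖ _ _ _ _ h2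
  -- `0 < e`, hence `0 < t`
  have hepos : 0 < d.e := by
    rcases Nat.eq_zero_or_pos d.e with h0 | h0
    · exfalso
      have h1 := d.he
      rw [h0, pow_zero, Ideal.one_eq_top, Ideal.span_singleton_eq_top] at h1
      exact (mem_nonunits_iff.mp ((mem_maximalIdeal _).mp (natCast_p_mem_maximalIdeal d))) h1
    · exact h0
  have htpos : 0 < t := by
    rcases Nat.eq_zero_or_pos t with h0 | h0
    · rw [h0, zero_mul] at het
      exact absurd het hepos.ne'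
    · exact h0
  -- `ζ ≡ 1`
  have hresζ : residue d.B d.ζ = 1 := by
    have hmem : d.ζ - 1 ∈ maximalIdeal d.B := by
      rw [hw, hϖ.maximalIdeal_eq]
      exact Ideal.mul_mem_left _ _ (Ideal.pow_mem_of_mem _ (Ideal.mem_span_singleton_self ϖ) t htpos)
    have := (residue_eq_zero_iff _).mpr hmem
    rwa [map_sub, map_one, sub_eq_zero] at this
  -- the key congruence `μ ^ (j t) = a`
  set σ := τ₀ ^ j with hσ
  have hσmem : σ ∈ ramGroup d.B d.Γ 0 := Subgroup.pow_mem _ hτ₀ j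
  obtain ⟨u, -, hu⟩ := exists_smul_eq_mul σ hϖ
  have hresu : residue d.B u = μ ^ j := residue_unit_pow d hT hϖ j u hu
  have key : residue d.B (w : d.B) * μ ^ (j * t) = residue d.B (w : d.B) * (a : ResidueField d.B) := by
    have e1 : σ • (d.ζ - 1) = (σ • (w : d.B) * u ^ t) * ϖ ^ t := by
      rw [hw, smul_mul', smul_pow', hu, mul_pow, mul_assoc]
    have e2 : σ • (d.ζ - 1) = ((w : d.B) * ∑ i ∈ range a, d.ζ ^ i) * ϖ ^ t := by
      rw [smul_sub, smul_one, hja, ← mul_geom_sum, hw]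
      ring
    have e3 : σ • (w : d.B) * u ^ t = (w : d.B) * ∑ i ∈ range a, d.ζ ^ i :=
      mul_right_cancel₀ (pow_ne_zero t hϖ0) (e1.symm.trans e2)
    have e4 := congrArg (residue d.B) e3
    rw [map_mul, map_mul, map_pow, residue_smul_of_mem_ramGroup_zero hσmem, hresu, ← pow_mul,
      map_sum] at e4
    rw [e4]
    congr 1
    simp only [map_pow, hresζ, one_pow, sum_const, card_range, nsmul_eq_mul, mul_one]
  have hwne : residue d.B (w : d.B) ≠ 0 := by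
    intro h0
    exact (mem_nonunits_iff.mp ((mem_maximalIdeal _).mp ((residue_eq_zero_iff _).mp h0))) w.isUnit
  have hkey : μ ^ (j * t) = (a : ResidueField d.B) := mul_left_cancel₀ hwne key
  -- `a ≡ 1 [MOD p] ↔ ord μ ∣ j t`
  have h3 : a ≡ 1 [MOD d.p] ↔ orderOf μ ∣ j * t := by
    rw [orderOf_dvd_iff_pow_eq_one, hkey, ← CharP.natCast_eq_natCast (ResidueField d.B) d.p,
      Nat.cast_one]
  rw [h3]
  -- counting
  have hcard := card_inertia_eq d hT
  have hfact : Fact d.p.Prime := ⟨hp⟩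
  obtain ⟨s, hs⟩ := hW.exists_card_eq
  have hordpos : 0 < orderOf μ := by
    have hfin : IsOfFinOrder τ₀ := isOfFinOrder_of_finite τ₀
    have h1 : μ ^ orderOf τ₀ = 1 := by
      rw [← hμ, pow_orderOf_eq_one]
      exact one_mem _
    exact orderOf_pos_iff.mpr (isOfFinOrder_iff_pow_eq_one.mpr ⟨_, hfin.orderOf_pos, h1⟩)
  have hcop : Nat.Coprime (d.p - 1) d.p := by
    have : Nat.Coprime d.p (d.p - 1) :=
      Nat.coprime_of_lt_prime (Nat.sub_pos_of_lt hp.one_lt).ne' (Nat.sub_lt hp.pos Nat.one_pos) hp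
    exact this.symm
  exact dvd_mul_iff_of_mul_eq hordpos hp.pos hcop (by rw [← het, he, hcard, hs])

end Fermat.Agent.S56.H194
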