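import Fermat.Agent.S56.H194.CycExp

/-!
# S56 / P3 leaf CYC (helper194): `G_{ℚ(ζ_{p^(n+1)})}` is normal in `G_ℚ` with cyclic quotient

`cycloQuotient : Fermat.Agent.S56.P3.CycloQuotientStatement`.

Proof: `fixRootsSubgroup p n` is the kernel of the cyclotomic character
`IsPrimitiveRoot.autToPow : G_ℚ →* (ZMod (p^(n+1)))ˣ`, and `(ZMod (p^(n+1)))ˣ` is cyclic for odd `p`.
-/

set_option autoImplicit false

namespace Fermat.Agent.S56.H194

open Fermat.Agent.S56 Fermat.Agent.S56.P3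

/-- `σ` fixes all `m`-th roots of unity iff it fixes one primitive `m`-th root of unity. -/
theorem fixes_roots_iff_fixes_primitive {m : ℕ} (hm : 0 < m) {ζ : Qb}
    (hζ : IsPrimitiveRoot ζ m) (σ : GQ) :
    (∀ μ : Qb, μ ^ m = 1 → σ μ = μ) ↔ σ ζ = ζ := by
  constructor
  · intro h
    exact h ζ hζ.pow_eq_one
  · intro h μ hμ
    obtain ⟨j, -, rfl⟩ := exists_pow_eq_of_pow_eq_one hm hζ hμ
    rw [map_pow, h]

/-- A unit of `ZMod m` is `1` iff its canonical representative is `≡ 1 mod m`. -/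
theorem val_modEq_one_iff {m : ℕ} [NeZero m] (u : (ZMod m)ˣ) :
    (u : ZMod m).val ≡ 1 [MOD m] ↔ u = 1 := by
  rw [← ZMod.natCast_eq_natCast_iff, ZMod.natCast_val, ZMod.cast_id', id_eq, Nat.cast_one]
  exact Units.val_eq_one

/-- For a primitive `m`-th root of unity `ζ`: `ζ ^ j = ζ` iff `j ≡ 1 mod m`. -/
theorem primitiveRoot_pow_eq_self_iff {M : Type*} [CommMonoid M] {ζ : M} {m : ℕ} (hm : m ≠ 0)
    (hζ : IsPrimitiveRoot ζ m) (j : ℕ) : ζ ^ j = ζ ↔ j ≡ 1 [MOD m] := by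
  have h := (hζ.isOfFinOrder hm).pow_eq_pow_iff_modEq (n := j) (m := 1)
  rw [pow_one, ← hζ.eq_orderOf] at h
  exact h

/-- Auxiliary: a unit `u` of `ZMod m` with `ζ ^ u.val = x` is `1` iff `x = ζ`. -/
theorem unit_eq_one_iff_of_pow_val_eq {m : ℕ} [NeZero m] {ζ x : Qb} (hζ : IsPrimitiveRoot ζ m)
    (u : (ZMod m)ˣ) (hspec : ζ ^ (u : ZMod m).val = x) : u = 1 ↔ x = ζ := by
  rw [← val_modEq_one_iff, ← primitiveRoot_pow_eq_self_iff (NeZero.ne m) hζ, hspec]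

/-- The cyclotomic character at level `m` is trivial at `σ` iff `σ` fixes `ζ`. -/
theorem autToPow_eq_one_iff {m : ℕ} [NeZero m] {ζ : Qb} (hζ : IsPrimitiveRoot ζ m) (σ : GQ) :
    hζ.autToPow ℚ σ = 1 ↔ σ ζ = ζ :=
  unit_eq_one_iff_of_pow_val_eq hζ _ (hζ.autToPow_spec ℚ σ)

/-- `G_{ℚ(ζ_{p^(n+1)})}` is the kernel of the cyclotomic character at level `p^(n+1)`. -/
theorem fixRootsSubgroup_eq_ker (p n : ℕ) [NeZero (p ^ (n + 1))] {ζ : Qb}
    (hζ : IsPrimitiveRoot ζ (p ^ (n + 1))) :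
    fixRootsSubgroup p n = (hζ.autToPow ℚ).ker := by
  ext σ
  rw [mem_fixRootsSubgroup, MonoidHom.mem_ker, autToPow_eq_one_iff hζ σ]
  exact fixes_roots_iff_fixes_primitive (Nat.pos_of_ne_zero (NeZero.ne _)) hζ σ

/-- The quotient of a group by the kernel of a homomorphism to a cyclic group is cyclic. -/
theorem isCyclic_quotient_ker {G H : Type*} [Group G] [Group H] [IsCyclic H] (f : G →* H) :
    IsCyclic (G ⧸ f.ker) := by
  have e : G ⧸ f.ker ≃* f.range := QuotientGroup.quotientKerEquivRange f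
  exact isCyclic_of_surjective e.symm e.symm.surjective

/-- (CYC) `G_{ℚ(ζ_{p^(n+1)})}` is normal in `G_ℚ` with cyclic quotient (`p` odd). -/
theorem cycloQuotient : Fermat.Agent.S56.P3.CycloQuotientStatement := by
  intro p hp hp2 n
  have hm : 0 < p ^ (n + 1) := pow_pos hp.out.pos _
  have : NeZero (p ^ (n + 1)) := ⟨hm.ne'⟩
  obtain ⟨ζ, hζ⟩ := exists_isPrimitiveRoot_Qb (p ^ (n + 1)) hm
  rw [fixRootsSubgroup_eq_ker p n hζ]
  have : IsCyclic (ZMod (p ^ (n + 1)))ˣ := ZMod.isCyclic_units_of_prime_pow p hp.out hp2 (n + 1)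
  exact ⟨inferInstance, isCyclic_quotient_ker _⟩

end Fermat.Agent.S56.H194
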