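import Fermat.Agent.S56.P3.Spec

/-!
# S56 / P3 leaf CYCEXP (helper194): every `σ ∈ G_ℚ` has a cyclotomic exponent on `μ_p`

`cycExpExists : Fermat.Agent.S56.P3.CycExpExistsStatement`.

Also the general-`m` version `exists_cycExp_of_pos` (any `m > 0`), which is reused by `Cyc.lean`.
-/

set_option autoImplicit false

namespace Fermat.Agent.S56.H194

open Fermat.Agent.S56

/-- There is a primitive `m`-th root of unity in `ℚ̄` (`m > 0`). -/
theorem exists_isPrimitiveRoot_Qb (m : ℕ) (hm : 0 < m) :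
    ∃ ζ : Qb, IsPrimitiveRoot ζ m := by
  have : NeZero m := ⟨hm.ne'⟩
  have : NeZero ((m : ℕ) : ℚ) := ⟨by exact_mod_cast hm.ne'⟩
  exact HasEnoughRootsOfUnity.exists_primitiveRoot Qb m

/-- Every `m`-th root of unity is a power of a given primitive one. -/
theorem exists_pow_eq_of_pow_eq_one {m : ℕ} (hm : 0 < m) {ζ : Qb} (hζ : IsPrimitiveRoot ζ m)
    {μ : Qb} (hμ : μ ^ m = 1) : ∃ j : ℕ, j < m ∧ ζ ^ j = μ := by
  have : NeZero m := ⟨hm.ne'⟩
  exact hζ.eq_pow_of_pow_eq_one hμ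

/-- Every `σ ∈ G_ℚ` acts on the `m`-th roots of unity by `μ ↦ μ ^ a` for some `a`. -/
theorem exists_cycExp_of_pos (m : ℕ) (hm : 0 < m) (σ : GQ) :
    ∃ a : ℕ, ∀ μ : Qb, μ ^ m = 1 → σ μ = μ ^ a := by
  obtain ⟨ζ, hζ⟩ := exists_isPrimitiveRoot_Qb m hm
  have hσζ : (σ ζ) ^ m = 1 := by rw [← map_pow, hζ.pow_eq_one, map_one]
  obtain ⟨a, -, ha⟩ := exists_pow_eq_of_pow_eq_one hm hζ hσζ
  refine ⟨a, fun μ hμ => ?_⟩
  obtain ⟨j, -, rfl⟩ := exists_pow_eq_of_pow_eq_one hm hζ hμ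
  rw [map_pow, ← ha, ← pow_mul, ← pow_mul, mul_comm]

/-- (CYCEXP) every `σ ∈ G_ℚ` has a cyclotomic exponent on `μ_p`. -/
theorem cycExpExists : Fermat.Agent.S56.P3.CycExpExistsStatement := by
  intro p hp σ
  exact exists_cycExp_of_pos p hp.out.pos σ

end Fermat.Agent.S56.H194
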