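import Mathlib

/-!
# S56 / W-FLAT-SS, piece FL-SS (abstract form): structure of an irreducible 2-dimensional
representation of a decomposition group in residue characteristic `p`   (helper194, Mathlib-only)

`G` any group (think `G_ℚ`), `D ⊇ I ⊇ W` subgroups (decomposition, inertia, "wild" = kernel of
the tame characters at a finite level), `φ ∈ D` (Frobenius), `ρ : G →* End_k V`, `dim V = 2`,
`k` a finite field of characteristic `p` odd.  Hypotheses (all at the level of `ρ`-images):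
* `W`, `I` are normalised by `D`; `ρ(w)` has `p`-power order for `w ∈ W`;
* commutators of `I` act like elements of `W`; for `τ ∈ I` some power `τ ^ N`, `p ∤ N`, acts like
  an element of `W`  (tame quotient is abelian of order prime to `p`);
* `ρ(D) = ⟨ρ φ⟩ · ρ(I)`;  `ρ(φ τ φ⁻¹) = ρ(τ ^ p · w)`  (Frobenius relation);
* every `ρ(g)` has its eigenvalues in `k`; `ρ|_D` is irreducible.
Conclusions (`SS.structure`): `ρ(W) = 1`; there is a basis `b` of `V` with `ρ(τ) = diag(χ τ, χ' τ)`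
for `τ ∈ I`, `χ ≠ χ'` on `I`, `χ' = χ ^ p`, `χ = χ' ^ p`, and `ρ(φ)` swaps the two lines.
Corollaries: every `ρ(σ)`, `σ ∈ D`, is diagonal or anti-diagonal in `b`, and `ρ(σ) ^ (2(|k|-1)) = 1`
(so `p ∤ |ρ(D)|`); `ρ(φ) ^ 2` is a scalar.
-/

set_option autoImplicit false

open Polynomial

namespace Fermat.Agent.S56.H194.SS

variable {k : Type*} [Field k] {V : Type*} [AddCommGroup V] [Module k V]

/-! ### A `p`-group acting linearly in characteristic `p` has a nonzero fixed vector -/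

theorem exists_fixed_vector_of_pGroup [Finite k] {p : ℕ} [Fact p.Prime] [CharP k p]
    [Module.Finite k V] [Nontrivial V] (H : Subgroup (Module.End k V)ˣ) (hH : IsPGroup p H) :
    ∃ v : V, v ≠ 0 ∧ ∀ h ∈ H, ((h : (Module.End k V)ˣ) : Module.End k V) v = v := by
  have : Finite V := Module.finite_of_finite k
  have hcard : p ∣ Nat.card V := by
    rw [Module.natCard_eq_pow_finrank (K := k) (V := V)]
    have hk : p ∣ Nat.card k := by
      have := Fintype.ofFinite k
      obtain ⟨n, -, hkn⟩ := FiniteField.card k p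
      rw [Nat.card_eq_fintype_card, hkn]
      exact dvd_pow_self p n.ne_zero
    exact dvd_pow hk (Module.finrank_pos (R := k) (M := V)).ne'
  have h0 : (0 : V) ∈ MulAction.fixedPoints H V := by
    intro h
    show ((h : (Module.End k V)ˣ) : Module.End k V) 0 = 0
    exact map_zero _
  obtain ⟨v, hv, hne⟩ := hH.exists_fixed_point_of_prime_dvd_card_of_fixed_point V hcard h0
  exact ⟨v, fun h => hne h.symm, fun h hh => hv ⟨h, hh⟩⟩


/-! ### Linear algebra in dimension 2 -/

section LinAlg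

variable [Module.Finite k V]

/-- A root of the characteristic polynomial gives an eigenvector. -/
theorem exists_eigenvector {f : Module.End k V} {α β : k}
    (h : LinearMap.charpoly f = (X - C α) * (X - C β)) : ∃ v : V, v ≠ 0 ∧ f v = α • v := by
  have hroot : (LinearMap.charpoly f).IsRoot α := by
    rw [h, IsRoot.def, eval_mul, eval_sub, eval_X, eval_C, sub_self, zero_mul]
  obtain ⟨v, hv⟩ := ((Module.End.hasEigenvalue_iff_isRoot_charpoly f α).mpr hroot).exists_hasEigenvector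
  exact ⟨v, hv.2, hv.apply_eq_smul⟩

/-- Same for the second root. -/
theorem exists_eigenvector' {f : Module.End k V} {α β : k}
    (h : LinearMap.charpoly f = (X - C α) * (X - C β)) : ∃ v : V, v ≠ 0 ∧ f v = β • v := by
  rw [mul_comm] at h
  exact exists_eigenvector h

/-- Cayley–Hamilton for a split characteristic polynomial. -/
theorem sub_mul_sub_eq_zero {f : Module.End k V} {α β : k}
    (h : LinearMap.charpoly f = (X - C α) * (X - C β)) :
    (f - α • (1 : Module.End k V)) * (f - β • (1 : Module.End k V)) = 0 := by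
  have := LinearMap.aeval_self_charpoly f
  rw [h, map_mul, map_sub, map_sub, aeval_X, aeval_C, aeval_C, Algebra.algebraMap_eq_smul_one,
    Algebra.algebraMap_eq_smul_one] at this
  exact this

omit [Module.Finite k V] in
/-- `(α + n) ^ N = α ^ N + N α ^ (N - 1) n` when `n ^ 2 = 0`. -/
theorem smul_one_add_pow_of_sq_zero (α : k) {n : Module.End k V} (hn : n * n = 0) (N : ℕ) :
    (α • (1 : Module.End k V) + n) ^ N =
      (α ^ N) • (1 : Module.End k V) + ((N : k) * α ^ (N - 1)) • n := by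
  induction N with
  | zero => simp
  | succ N ih =>
    rw [pow_succ, ih]
    rcases Nat.eq_zero_or_pos N with h0 | hpos
    · subst h0
      simp
    · have hN : N - 1 + 1 = N := Nat.sub_add_cancel hpos
      have e1 : α ^ (N + 1 - 1) = α ^ (N - 1) * α := by
        rw [Nat.add_sub_cancel, ← pow_succ, hN]
      rw [e1]
      simp only [add_mul, mul_add, smul_mul_assoc, mul_smul_comm, one_mul, mul_one, hn, smul_zero,
        add_zero, Nat.cast_succ]
      have e2 : α ^ (N + 1) = α ^ (N - 1) * α * α := by rw [← pow_succ, hN, ← pow_succ]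
      have e3 : α ^ N = α ^ (N - 1) * α := by rw [← pow_succ, hN]
      rw [e2, e3]
      module

/-- An endomorphism of finite order prime to the characteristic with a double eigenvalue `α` is
the scalar `α`. -/
theorem eq_smul_one_of_pow_eq_one {f : Module.End k V} {α : k}
    (h : LinearMap.charpoly f = (X - C α) * (X - C α)) {N : ℕ} (hN : (N : k) ≠ 0)
    (hf : f ^ N = 1) : f = α • (1 : Module.End k V) := by
  set n : Module.End k V := f - α • (1 : Module.End k V) with hn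
  have hnn : n * n = 0 := sub_mul_sub_eq_zero h
  have hfn : f = α • (1 : Module.End k V) + n := by rw [hn]; abel
  obtain ⟨v, hv0, hv⟩ := exists_eigenvector h
  have hnv : n v = 0 := by
    rw [hn, LinearMap.sub_apply, hv, LinearMap.smul_apply, Module.End.one_apply, sub_self]
  have hpow := smul_one_add_pow_of_sq_zero α hnn N
  rw [← hfn, hf] at hpow
  -- evaluate at `v`
  have hα : α ^ N = 1 := by
    have := congrArg (fun g : Module.End k V => g v) hpow
    simp only [Module.End.one_apply, LinearMap.add_apply, LinearMap.smul_apply, hnv, smul_zero,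
      add_zero] at this
    by_contra hne
    have h1 : (1 - α ^ N) • v = 0 := by rw [sub_smul, one_smul, ← this, sub_self]
    rcases smul_eq_zero.mp h1 with h2 | h2
    · exact hne (sub_eq_zero.mp h2).symm
    · exact hv0 h2
  have hN0 : N ≠ 0 := by
    rintro rfl
    simp at hN
  have hα0 : α ≠ 0 := by
    rintro rfl
    rw [zero_pow hN0] at hα
    exact zero_ne_one hα
  rw [hα, one_smul, left_eq_add] at hpow
  have hc : (N : k) * α ^ (N - 1) ≠ 0 := mul_ne_zero hN (pow_ne_zero _ hα0)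
  have hn0 : n = 0 := (smul_eq_zero.mp hpow).resolve_left hc
  rw [hfn, hn0, add_zero]

end LinAlg


/-! ### Two eigenlines -/

section Eigen

/-- Eigenvectors for distinct eigenvalues are linearly independent. -/
theorem linearIndependent_pair_of_eigen {f : Module.End k V} {α β : k} (hαβ : α ≠ β)
    {e₁ e₂ : V} (h₁ : f e₁ = α • e₁) (h₂ : f e₂ = β • e₂) (he₁ : e₁ ≠ 0) (he₂ : e₂ ≠ 0) :
    LinearIndependent k ![e₁, e₂] := by
  rw [LinearIndependent.pair_iff]
  intro s t hst
  have h := congrArg f hst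
  rw [map_add, map_smul, map_smul, h₁, h₂, map_zero] at h
  -- s α e₁ + t β e₂ = 0 and α (s e₁ + t e₂) = 0
  have h' : (t * (β - α)) • e₂ = 0 := by
    have hα : α • (s • e₁ + t • e₂) = 0 := by rw [hst, smul_zero]
    have : (t * (β - α)) • e₂ = (s • α • e₁ + t • β • e₂) - α • (s • e₁ + t • e₂) := by module
    rw [this, h, hα, sub_zero]
  have ht : t = 0 := by
    rcases smul_eq_zero.mp h' with h0 | h0
    · rcases mul_eq_zero.mp h0 with h1 | h1
      · exact h1
      · exact absurd (sub_eq_zero.mp h1).symm hαβ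
    · exact absurd h0 he₂
  subst ht
  rw [zero_smul, add_zero] at hst
  exact ⟨(smul_eq_zero.mp hst).resolve_right he₁, rfl⟩

variable (hdim : Module.finrank k V = 2)

include hdim

/-- In dimension 2 a linearly independent pair spans. -/
theorem exists_eq_smul_add_smul {e₁ e₂ : V} (hli : LinearIndependent k ![e₁, e₂]) (x : V) :
    ∃ s t : k, x = s • e₁ + t • e₂ := by
  have hcard : Fintype.card (Fin 2) = Module.finrank k V := by rw [hdim]; rfl
  have : Module.Finite k V := Module.finite_of_finrank_pos (by rw [hdim]; norm_num)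
  let b := basisOfLinearIndependentOfCardEqFinrank hli hcard
  refine ⟨b.repr x 0, b.repr x 1, ?_⟩
  have hx := b.sum_repr x
  rw [Fin.sum_univ_two] at hx
  have hb0 : b 0 = e₁ := by
    rw [coe_basisOfLinearIndependentOfCardEqFinrank]; rfl
  have hb1 : b 1 = e₂ := by
    rw [coe_basisOfLinearIndependentOfCardEqFinrank]; rfl
  rw [hb0, hb1] at hx
  exact hx.symm

/-- An eigenvector of `f = diag(α, β)` (`α ≠ β`) lies on one of the two eigenlines. -/
theorem eigen_mem_line {f : Module.End k V} {α β : k} (hαβ : α ≠ β)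
    {e₁ e₂ : V} (h₁ : f e₁ = α • e₁) (h₂ : f e₂ = β • e₂) (he₁ : e₁ ≠ 0) (he₂ : e₂ ≠ 0)
    {x : V} {γ : k} (hx : f x = γ • x) :
    (∃ s : k, x = s • e₁) ∨ (∃ t : k, x = t • e₂) := by
  have hli := linearIndependent_pair_of_eigen hαβ h₁ h₂ he₁ he₂
  obtain ⟨s, t, rfl⟩ := exists_eq_smul_add_smul hdim hli x
  rw [map_add, map_smul, map_smul, h₁, h₂] at hx
  have h0 : (s * (α - γ)) • e₁ + (t * (β - γ)) • e₂ = 0 := by
    have : (s * (α - γ)) • e₁ + (t * (β - γ)) • e₂ =
        (s • α • e₁ + t • β • e₂) - γ • (s • e₁ + t • e₂) := by module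
    rw [this, hx, sub_self]
  obtain ⟨hs, ht⟩ := LinearIndependent.pair_iff.mp hli _ _ h0
  rcases mul_eq_zero.mp hs with hs0 | hs0
  · right
    exact ⟨t, by rw [hs0, zero_smul, zero_add]⟩
  · rcases mul_eq_zero.mp ht with ht0 | ht0
    · left
      exact ⟨s, by rw [ht0, zero_smul, add_zero]⟩
    · exact absurd ((sub_eq_zero.mp hs0).trans (sub_eq_zero.mp ht0).symm) hαβ

/-- An endomorphism commuting with `f = diag(α, β)` (`α ≠ β`) preserves the first eigenline. -/
theorem commute_eigen_left {f g : Module.End k V} {α β : k} (hαβ : α ≠ β)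
    {e₁ e₂ : V} (h₁ : f e₁ = α • e₁) (h₂ : f e₂ = β • e₂) (he₁ : e₁ ≠ 0) (he₂ : e₂ ≠ 0)
    (hfg : f * g = g * f) : ∃ c : k, g e₁ = c • e₁ := by
  have hx : f (g e₁) = α • g e₁ := by
    have := congrArg (fun u : Module.End k V => u e₁) hfg
    simp only [Module.End.mul_apply] at this
    rw [this, h₁, map_smul]
  have hli := linearIndependent_pair_of_eigen hαβ h₁ h₂ he₁ he₂
  obtain ⟨s, t, hst⟩ := exists_eq_smul_add_smul hdim hli (g e₁)
  rw [hst, map_add, map_smul, map_smul, h₁, h₂] at hx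
  have h0 : (t * (β - α)) • e₂ = 0 := by
    have : (t * (β - α)) • e₂ = (s • α • e₁ + t • β • e₂) - α • (s • e₁ + t • e₂) := by module
    rw [this, hx, sub_self]
  have ht : t = 0 := by
    rcases smul_eq_zero.mp h0 with h1 | h1
    · rcases mul_eq_zero.mp h1 with h2 | h2
      · exact h2
      · exact absurd (sub_eq_zero.mp h2).symm hαβ
    · exact absurd h1 he₂
  exact ⟨s, by rw [hst, ht, zero_smul, add_zero]⟩

/-- An endomorphism commuting with `f = diag(α, β)` (`α ≠ β`) preserves the second eigenline. -/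
theorem commute_eigen_right {f g : Module.End k V} {α β : k} (hαβ : α ≠ β)
    {e₁ e₂ : V} (h₁ : f e₁ = α • e₁) (h₂ : f e₂ = β • e₂) (he₁ : e₁ ≠ 0) (he₂ : e₂ ≠ 0)
    (hfg : f * g = g * f) : ∃ c : k, g e₂ = c • e₂ :=
  commute_eigen_left hdim (Ne.symm hαβ) h₂ h₁ he₂ he₁ hfg

/-- A line in a plane is a proper nonzero subspace. -/
theorem span_singleton_ne_bot_top {v : V} (hv : v ≠ 0) :
    Submodule.span k {v} ≠ ⊥ ∧ Submodule.span k {v} ≠ ⊤ := by
  refine ⟨fun h => hv ((Submodule.span_singleton_eq_bot).mp h), fun h => ?_⟩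
  have h1 : Module.finrank k (Submodule.span k {v}) = 1 := finrank_span_singleton hv
  rw [h, finrank_top, hdim] at h1
  norm_num at h1

end Eigen


/-! ### The abstract (SS) statement -/

/-- Hypotheses of the abstract (SS) statement: `D ⊇ I ⊇ W` decomposition / inertia / wild
subgroups, `φ` a Frobenius, `ρ` a 2-dimensional representation over a field of characteristic
`p`, irreducible on `D`, with all eigenvalues in `k`. -/
structure Hyp [Module.Finite k V] (p : ℕ) {G : Type*} [Group G] (ρ : G →* Module.End k V)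
    (D I W : Subgroup G) (φ : G) : Prop where
  finrank_eq : Module.finrank k V = 2
  I_le : I ≤ D
  W_le : W ≤ I
  I_norm : ∀ g ∈ D, ∀ τ ∈ I, g * τ * g⁻¹ ∈ I
  W_norm : ∀ g ∈ D, ∀ w ∈ W, g * w * g⁻¹ ∈ W
  W_pow : ∀ w ∈ W, ∃ a : ℕ, ρ w ^ p ^ a = 1
  comm : ∀ σ ∈ I, ∀ τ ∈ I, ∃ w ∈ W, ρ (σ * τ * σ⁻¹ * τ⁻¹) = ρ w
  tame : ∀ τ ∈ I, ∃ N : ℕ, ¬ p ∣ N ∧ ∃ w ∈ W, ρ (τ ^ N) = ρ w
  phi_mem : φ ∈ D
  gen : ∀ σ ∈ D, ∃ n : ℕ, ∃ τ ∈ I, ρ σ = ρ (φ ^ n * τ)
  frob : ∀ τ ∈ I, ∃ w ∈ W, ρ (φ * τ * φ⁻¹) = ρ (τ ^ p * w)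
  split : ∀ g : G, ∃ α β : k, LinearMap.charpoly (ρ g) = (X - C α) * (X - C β)
  irr : ∀ U : Submodule k V, (∀ σ ∈ D, ∀ x ∈ U, ρ σ x ∈ U) → U = ⊥ ∨ U = ⊤

namespace Hyp

variable [Module.Finite k V] {p : ℕ} [Fact p.Prime] [CharP k p] {G : Type*} [Group G]
  {ρ : G →* Module.End k V} {D I W : Subgroup G} {φ : G}

omit [Module.Finite k V] [Fact p.Prime] [CharP k p] in
theorem rho_mul_inv (g : G) : ρ g * ρ g⁻¹ = 1 := by
  rw [← map_mul, mul_inv_cancel, map_one]

omit [Module.Finite k V] [Fact p.Prime] [CharP k p] in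
theorem rho_inv_mul (g : G) : ρ g⁻¹ * ρ g = 1 := by
  rw [← map_mul, inv_mul_cancel, map_one]

omit [Module.Finite k V] [Fact p.Prime] [CharP k p] in
theorem rho_injective (g : G) : Function.Injective (ρ g) := by
  intro x y hxy
  have := congrArg (ρ g⁻¹) hxy
  rwa [← Module.End.mul_apply, ← Module.End.mul_apply, rho_inv_mul, Module.End.one_apply,
    Module.End.one_apply] at this

variable (h : Hyp p ρ D I W φ)

include h

omit [Fact p.Prime] [CharP k p] in
theorem nontrivial : Nontrivial V :=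
  Module.nontrivial_of_finrank_pos (R := k) (by rw [h.finrank_eq]; norm_num)

/-- (SS-1) the wild subgroup acts trivially. -/
theorem wild_trivial [Finite k] : ∀ w ∈ W, ρ w = 1 := by
  have := h.nontrivial
  -- the image of `W` in `GL(V)` is a `p`-group
  set H : Subgroup (Module.End k V)ˣ := W.map ρ.toHomUnits with hH
  have hP : IsPGroup p H := by
    rintro ⟨g, hg⟩
    obtain ⟨w, hw, rfl⟩ := Subgroup.mem_map.mp hg
    obtain ⟨a, ha⟩ := h.W_pow w hw
    refine ⟨a, ?_⟩
    apply Subtype.ext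
    apply Units.ext
    simpa using ha
  obtain ⟨v, hv0, hv⟩ := exists_fixed_vector_of_pGroup H hP
  have hvW : ∀ w ∈ W, ρ w v = v := fun w hw => hv (ρ.toHomUnits w) (Subgroup.mem_map_of_mem _ hw)
  -- the space of `W`-fixed vectors is `D`-stable
  let U : Submodule k V :=
    { carrier := {x | ∀ w ∈ W, ρ w x = x}
      add_mem' := fun {x y} hx hy w hw => by rw [map_add, hx w hw, hy w hw]
      zero_mem' := fun w _ => map_zero _
      smul_mem' := fun c x hx w hw => by rw [map_smul, hx w hw] }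
  have hU : ∀ σ ∈ D, ∀ x ∈ U, ρ σ x ∈ U := by
    intro σ hσ x hx w hw
    have hconj : σ⁻¹ * w * σ ∈ W := by
      have := h.W_norm σ⁻¹ (inv_mem hσ) w hw
      rwa [inv_inv] at this
    have h1 : ρ w (ρ σ x) = ρ σ (ρ (σ⁻¹ * w * σ) x) := by
      rw [← Module.End.mul_apply, ← Module.End.mul_apply, ← map_mul, ← map_mul]
      congr 2
      group
    rw [h1, hx _ hconj]
  rcases h.irr U hU with hbot | htop
  · exact absurd ((Submodule.eq_bot_iff U).mp hbot v hvW) hv0
  · intro w hw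
    ext x
    have hx : x ∈ U := htop ▸ Submodule.mem_top
    exact hx w hw

/-- (SS-2) inertia acts through commuting endomorphisms. -/
theorem inertia_comm [Finite k] {σ τ : G} (hσ : σ ∈ I) (hτ : τ ∈ I) :
    ρ σ * ρ τ = ρ τ * ρ σ := by
  obtain ⟨w, hw, hc⟩ := h.comm σ hσ τ hτ
  rw [h.wild_trivial w hw] at hc
  have : ρ σ * ρ τ = ρ (σ * τ * σ⁻¹ * τ⁻¹) * (ρ τ * ρ σ) := by
    rw [← map_mul, ← map_mul, ← map_mul]
    congr 1
    group
  rw [this, hc, one_mul]

/-- (SS-2) inertia acts through endomorphisms of order prime to `p`. -/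
theorem inertia_pow [Finite k] {τ : G} (hτ : τ ∈ I) : ∃ N : ℕ, (N : k) ≠ 0 ∧ ρ τ ^ N = 1 := by
  obtain ⟨N, hN, w, hw, hc⟩ := h.tame τ hτ
  refine ⟨N, fun h0 => hN ((CharP.cast_eq_zero_iff k p N).mp h0), ?_⟩
  rw [← map_pow, hc, h.wild_trivial w hw]

/-- (SS-2) each inertia element acts as a scalar or with two distinct eigenvalues. -/
theorem inertia_scalar_or_regular [Finite k] {τ : G} (hτ : τ ∈ I) :
    (∃ α : k, ρ τ = α • (1 : Module.End k V)) ∨
      ∃ α β : k, α ≠ β ∧ LinearMap.charpoly (ρ τ) = (X - C α) * (X - C β) := by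
  obtain ⟨α, β, hαβ⟩ := h.split τ
  by_cases hne : α = β
  · subst hne
    obtain ⟨N, hN, hpow⟩ := h.inertia_pow hτ
    exact Or.inl ⟨α, eq_smul_one_of_pow_eq_one hαβ hN hpow⟩
  · exact Or.inr ⟨α, β, hne, hαβ⟩

omit [Fact p.Prime] [CharP k p] in
/-- A line stable under `ρ φ` and `ρ(I)` is `D`-stable: impossible. -/
theorem not_stable_line {v : V} (hv : v ≠ 0) (hφ : ∃ c : k, ρ φ v = c • v)
    (hI : ∀ τ ∈ I, ∃ c : k, ρ τ v = c • v) : False := by
  have hstab : ∀ σ ∈ D, ∀ x ∈ Submodule.span k {v}, ρ σ x ∈ Submodule.span k {v} := by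
    intro σ hσ x hx
    obtain ⟨n, τ, hτ, hστ⟩ := h.gen σ hσ
    obtain ⟨a, rfl⟩ := Submodule.mem_span_singleton.mp hx
    obtain ⟨c, hc⟩ := hI τ hτ
    obtain ⟨d, hd⟩ := hφ
    have hpow : ∀ m : ℕ, (ρ φ ^ m) v = d ^ m • v := by
      intro m
      induction m with
      | zero => simp
      | succ m ih =>
        rw [pow_succ, Module.End.mul_apply, hd, map_smul, ih, smul_smul, pow_succ, mul_comm]
    rw [hστ, map_mul, map_pow, Module.End.mul_apply, map_smul, hc, map_smul, map_smul, hpow]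
    exact Submodule.smul_mem _ _ (Submodule.smul_mem _ _ (Submodule.smul_mem _ _
      (Submodule.mem_span_singleton_self v)))
  obtain ⟨h1, h2⟩ := span_singleton_ne_bot_top h.finrank_eq hv
  rcases h.irr _ hstab with hb | ht
  · exact h1 hb
  · exact h2 ht

/-- (SS-3) some inertia element acts with two distinct eigenvalues. -/
theorem exists_regular [Finite k] :
    ∃ τ₀ ∈ I, ∃ α β : k, α ≠ β ∧ LinearMap.charpoly (ρ τ₀) = (X - C α) * (X - C β) := by
  by_contra hcon
  have hscal : ∀ τ ∈ I, ∃ α : k, ρ τ = α • (1 : Module.End k V) := by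
    intro τ hτ
    rcases h.inertia_scalar_or_regular hτ with hs | ⟨α, β, hαβ, hc⟩
    · exact hs
    · exact absurd ⟨τ, hτ, α, β, hαβ, hc⟩ hcon
  obtain ⟨α, β, hαβ⟩ := h.split φ
  obtain ⟨v, hv0, hv⟩ := exists_eigenvector hαβ
  refine h.not_stable_line hv0 ⟨α, hv⟩ fun τ hτ => ?_
  obtain ⟨c, hc⟩ := hscal τ hτ
  exact ⟨c, by rw [hc, LinearMap.smul_apply, Module.End.one_apply]⟩


omit [Module.Finite k V] [Fact p.Prime] [CharP k p] h in
theorem pow_apply_eigen {f : Module.End k V} {c : k} {v : V} (hf : f v = c • v) (m : ℕ) :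
    (f ^ m) v = c ^ m • v := by
  induction m with
  | zero => simp
  | succ m ih => rw [pow_succ, Module.End.mul_apply, hf, map_smul, ih, smul_smul, pow_succ, mul_comm]

/-- (SS-4) the Frobenius relation on `ρ`-images: `ρ φ * ρ τ = ρ τ ^ p * ρ φ` for `τ ∈ I`. -/
theorem frob_rel [Finite k] {τ : G} (hτ : τ ∈ I) : ρ φ * ρ τ = ρ τ ^ p * ρ φ := by
  obtain ⟨w, hw, hf⟩ := h.frob τ hτ
  have h1 : ρ (τ ^ p * w) = ρ τ ^ p := by
    rw [map_mul, h.wild_trivial w hw, mul_one, map_pow]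
  rw [h1] at hf
  rw [← hf, ← map_mul, ← map_mul]
  congr 1
  group

/-- **(SS) structure theorem.**  There is a basis `b` of `V` in which inertia acts diagonally by
two characters `χ ≠ χ'` with `χ' = χ ^ p`, `χ = χ' ^ p`, and Frobenius swaps the two lines. -/
theorem structure_thm [Finite k] :
    ∃ (b : Module.Basis (Fin 2) k V) (χ χ' : G → k) (a a' : k),
      (∀ τ ∈ I, ρ τ (b 0) = χ τ • b 0 ∧ ρ τ (b 1) = χ' τ • b 1) ∧
      (∃ τ ∈ I, χ τ ≠ χ' τ) ∧
      (∀ τ ∈ I, χ' τ = χ τ ^ p ∧ χ τ = χ' τ ^ p) ∧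
      a ≠ 0 ∧ a' ≠ 0 ∧ ρ φ (b 0) = a • b 1 ∧ ρ φ (b 1) = a' • b 0 := by
  obtain ⟨τ₀, hτ₀, α, β, hαβ, hc⟩ := h.exists_regular
  obtain ⟨e₁, he₁, h₁⟩ := exists_eigenvector hc
  obtain ⟨e₂, he₂, h₂⟩ := exists_eigenvector' hc
  have hdim := h.finrank_eq
  have hli := linearIndependent_pair_of_eigen hαβ h₁ h₂ he₁ he₂
  have hcard : Fintype.card (Fin 2) = Module.finrank k V := by rw [hdim]; rfl
  set b := basisOfLinearIndependentOfCardEqFinrank hli hcard with hb
  have hb0 : b 0 = e₁ := by rw [hb, coe_basisOfLinearIndependentOfCardEqFinrank]; rfl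
  have hb1 : b 1 = e₂ := by rw [hb, coe_basisOfLinearIndependentOfCardEqFinrank]; rfl
  -- inertia is diagonal
  have hdiag₁ : ∀ τ ∈ I, ∃ c : k, ρ τ e₁ = c • e₁ := fun τ hτ =>
    commute_eigen_left hdim hαβ h₁ h₂ he₁ he₂ (h.inertia_comm hτ₀ hτ)
  have hdiag₂ : ∀ τ ∈ I, ∃ c : k, ρ τ e₂ = c • e₂ := fun τ hτ =>
    commute_eigen_right hdim hαβ h₁ h₂ he₁ he₂ (h.inertia_comm hτ₀ hτ)
  -- Frobenius swaps the lines
  have hφinv : ∀ τ ∈ I, φ⁻¹ * τ * φ ∈ I := by
    intro τ hτ
    have := h.I_norm φ⁻¹ (inv_mem h.phi_mem) τ hτ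
    rwa [inv_inv] at this
  have hφeig : ∀ e : V, (∃ c : k, ρ (φ⁻¹ * τ₀ * φ) e = c • e) →
      ∃ γ : k, ρ τ₀ (ρ φ e) = γ • ρ φ e := by
    rintro e ⟨c, hce⟩
    refine ⟨c, ?_⟩
    have : ρ τ₀ (ρ φ e) = ρ φ (ρ (φ⁻¹ * τ₀ * φ) e) := by
      rw [← Module.End.mul_apply, ← Module.End.mul_apply, ← map_mul, ← map_mul]
      congr 2
      group
    rw [this, hce, map_smul]
  have hφ₁ : ∃ a : k, a ≠ 0 ∧ ρ φ e₁ = a • e₂ := by
    obtain ⟨γ, hγ⟩ := hφeig e₁ (hdiag₁ _ (hφinv τ₀ hτ₀))
    rcases eigen_mem_line hdim hαβ h₁ h₂ he₁ he₂ hγ with ⟨s, hs⟩ | ⟨t, ht⟩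
    · exact (h.not_stable_line he₁ ⟨s, hs⟩ hdiag₁).elim
    · refine ⟨t, ?_, ht⟩
      rintro rfl
      rw [zero_smul] at ht
      exact he₁ (rho_injective φ (ht.trans (map_zero _).symm))
  have hφ₂ : ∃ a' : k, a' ≠ 0 ∧ ρ φ e₂ = a' • e₁ := by
    obtain ⟨γ, hγ⟩ := hφeig e₂ (hdiag₂ _ (hφinv τ₀ hτ₀))
    rcases eigen_mem_line hdim hαβ h₁ h₂ he₁ he₂ hγ with ⟨s, hs⟩ | ⟨t, ht⟩
    · refine ⟨s, ?_, hs⟩
      rintro rfl
      rw [zero_smul] at hs
      exact he₂ (rho_injective φ (hs.trans (map_zero _).symm))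
    · exact (h.not_stable_line he₂ ⟨t, ht⟩ hdiag₂).elim
  obtain ⟨a, ha, hφe₁⟩ := hφ₁
  obtain ⟨a', ha', hφe₂⟩ := hφ₂
  -- the characters
  classical
  let χ : G → k := fun g => if hg : ∃ c : k, ρ g e₁ = c • e₁ then hg.choose else 0
  let χ' : G → k := fun g => if hg : ∃ c : k, ρ g e₂ = c • e₂ then hg.choose else 0
  have hχ : ∀ τ ∈ I, ρ τ e₁ = χ τ • e₁ := by
    intro τ hτ
    have hg := hdiag₁ τ hτ
    show ρ τ e₁ = (if hg : ∃ c : k, ρ τ e₁ = c • e₁ then hg.choose else 0) • e₁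
    rw [dif_pos hg]
    exact hg.choose_spec
  have hχ' : ∀ τ ∈ I, ρ τ e₂ = χ' τ • e₂ := by
    intro τ hτ
    have hg := hdiag₂ τ hτ
    show ρ τ e₂ = (if hg : ∃ c : k, ρ τ e₂ = c • e₂ then hg.choose else 0) • e₂
    rw [dif_pos hg]
    exact hg.choose_spec
  refine ⟨b, χ, χ', a, a', ?_, ?_, ?_, ha, ha', ?_, ?_⟩
  · intro τ hτ
    rw [hb0, hb1]
    exact ⟨hχ τ hτ, hχ' τ hτ⟩
  · refine ⟨τ₀, hτ₀, ?_⟩
    have e1 : χ τ₀ = α := by
      have := (hχ τ₀ hτ₀).symm.trans h₁
      exact smul_left_injective k he₁ this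
    have e2 : χ' τ₀ = β := by
      have := (hχ' τ₀ hτ₀).symm.trans h₂
      exact smul_left_injective k he₂ this
    rw [e1, e2]
    exact hαβ
  · intro τ hτ
    have hrel := h.frob_rel hτ
    constructor
    · -- apply to `e₂`
      have := congrArg (fun u : Module.End k V => u e₂) hrel
      simp only [Module.End.mul_apply] at this
      rw [hχ' τ hτ, map_smul, hφe₂, map_smul, pow_apply_eigen (hχ τ hτ), smul_smul, smul_smul] at this
      have h3 : χ' τ * a' = a' * χ τ ^ p := smul_left_injective k he₁ this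
      exact mul_right_cancel₀ ha' (h3.trans (mul_comm _ _))
    · -- apply to `e₁`
      have := congrArg (fun u : Module.End k V => u e₁) hrel
      simp only [Module.End.mul_apply] at this
      rw [hχ τ hτ, map_smul, hφe₁, map_smul, pow_apply_eigen (hχ' τ hτ), smul_smul, smul_smul] at this
      have h3 : χ τ * a = a * χ' τ ^ p := smul_left_injective k he₂ this
      exact mul_right_cancel₀ ha (h3.trans (mul_comm _ _))
  · rw [hb0, hb1]; exact hφe₁
  · rw [hb0, hb1]; exact hφe₂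

end Hyp

end Fermat.Agent.S56.H194.SS
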